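import Fermat.Agent.H18.ORD.NodalLiftDefs
import Fermat.Agent.H66.ESD.GaussBar
import Fermat.Agent.H62.SS.AtkinLehnerModel

/-!
# P-ORD, block B1 : THE INSTANCE of the nodal interface for `X₀(M p)` - definitions (helper84)

Level `N = M p`, `p` an odd prime, `p ∤ M` (auxiliary level `4 ∣ M`), `A` a valuation subring of
`ℚ̄` over `p`, `k` its residue field, `F = FLb (M p) = ℚ̄(X₀(M p))`.

Everything is defined at the `ℚ̄`-level, WITHOUT any choice of a number field:

* `nmResField N A`, `NmF N A` : the residue field `F_∞ = F_0` of the Gauss valuation ring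
  `V_∞ = gaussOBar N A` (helper66), a subfield of `k((q))`; `nmRedOo : V_∞ → F_∞`;
* `nmW M p hcop` : the Atkin-Lehner automorphism `W` of `F` (helper62/helper41);
  `nmV0 = W⁻¹ V_∞`, `nmRed0 = red_∞ ∘ W`;
* `nmChart N A y` : the `ℚ̄`-chart `B̄(y)` = integral closure of `A[y]` in `F`, `y = j` or `j⁻¹`;
* `nmInt A P`, `nmMax A P` : the composite valuation ring `{f | f(P) ∈ A}` of a place `P` and its
  maximal ideal `{f | f(P) ∈ 𝔪_A}`; `nmY` : the chart of `P` (`j` if `j(P) ∈ A`, `j⁻¹` if not);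
* `nmCentre P` : the centre of `P`, the maximal ideal `B̄(y) ∩ {f | f(P) ∈ 𝔪_A}` (as a set);
* `NmSpecOo S Q`, `NmSpecZero S Q` : the place `Q` of `F_∞` (resp. `F_0`) lies over the centre
  `S` : `red (S) ⊆ 𝔪_Q`;
* `NmNode` : the type of nodes = centres lying on both components;
* `nmG … htot : NodalData (M p) A F_∞ F_0 NmNode` : THE NODAL DATA, where `htot` is a proof of
  `NmTot` (every centre lies on a component; proof-irrelevant parameter).
-/

set_option autoImplicit false
set_option linter.unusedSectionVars false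

noncomputable section

open AlgebraicCurve ModularCurve

namespace Fermat.Agent.H84.ORD

open Fermat.Agent.H72.FF Fermat.Agent.H18.ORD Fermat.Agent.H66

/-! ### The Gauss ring at `∞` and its residue field -/

section Gauss

variable (N : ℕ) (A : ValuationSubring Qb)

/-- the residue field of the Gauss valuation ring at `∞`, as a subfield of `k((q))` -/
def nmResField : IntermediateField (kRes A) (LaurentSeries (kRes A)) :=
  Subalgebra.toIntermediateField
    { (gaussRedBar N A).range.toSubsemiring with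
      algebraMap_mem' := fun c => by
        obtain ⟨a, rfl⟩ := IsLocalRing.residue_surjective c
        exact ⟨⟨algebraMap Qb (FLb N) (a : Qb), (algebraMap_mem_gaussOBar_iff N A _).2 a.2⟩,
          gaussRedBar_algebraMap N A a.2⟩ }
    (by
      rintro _ ⟨u, rfl⟩
      by_cases h : gaussRedBar N A u = 0
      · rw [h, inv_zero]; exact ⟨0, map_zero _⟩
      · exact ⟨⟨(u : FLb N)⁻¹, inv_mem_gaussOBar N A h⟩, gaussRedBar_inv N A h⟩)

theorem mem_nmResField_iff (z : LaurentSeries (kRes A)) :
    z ∈ nmResField N A ↔ ∃ u : gaussOBar N A, gaussRedBar N A u = z := Iff.rfl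

/-- `F_∞ = F_0` : the function field of the components -/
abbrev NmF : Type := ↥(nmResField N A)

set_option synthInstance.maxHeartbeats 400000 in
/-- the `k`-algebra structure of `F_∞` (explicit instance: the generic search is too slow) -/
instance nmAlgebra : Algebra (kRes A) (NmF N A) :=
  (nmResField N A).toSubalgebra.algebra

theorem coe_nmAlgebraMap (c : kRes A) :
    ((algebraMap (kRes A) (NmF N A) c : NmF N A) : LaurentSeries (kRes A)) =
      algebraMap (kRes A) (LaurentSeries (kRes A)) c := rfl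

/-- the reduction `V_∞ → F_∞` -/
def nmRedOo : gaussOBar N A →+* NmF N A :=
  RingHom.codRestrict (gaussRedBar N A) (nmResField N A) (fun u => ⟨u, rfl⟩)

theorem coe_nmRedOo (u : gaussOBar N A) :
    ((nmRedOo N A u : NmF N A) : LaurentSeries (kRes A)) = gaussRedBar N A u := rfl

theorem nmRedOo_surjective : Function.Surjective (nmRedOo N A) := by
  rintro ⟨z, u, rfl⟩
  exact ⟨u, rfl⟩

theorem nmRedOo_eq_zero_iff (u : gaussOBar N A) : nmRedOo N A u = 0 ↔ gaussRedBar N A u = 0 := by
  rw [← Subtype.coe_inj]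
  rfl

end Gauss

/-! ### The Atkin-Lehner automorphism and the Gauss ring at `0` -/

section AL

variable (M p : ℕ) [NeZero M] [NeZero p] (hcop : Nat.Coprime M p) (A : ValuationSubring Qb)

/-- the Atkin-Lehner automorphism `W = W_p` of `F = ℚ̄(X₀(M p))` -/
def nmW : FLb (M * p) ≃ₐ[Qb] FLb (M * p) :=
  Classical.choose (Fermat.Agent.H62.SS.exists_atkinLehnerBar_gens M p hcop)

theorem nmW_spec :
    (∀ (d' : ℕ) (_ : NeZero d') (hd' : d' ∣ M * p),
      ∃ (d'' : ℕ) (_ : NeZero d'') (hd'' : d'' ∣ M * p),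
        nmW M p hcop (Fermat.Agent.H23.jBarD (M * p) d' hd') =
          Fermat.Agent.H23.jBarD (M * p) d'' hd'' ∧
        nmW M p hcop (Fermat.Agent.H23.jBarD (M * p) d'' hd'') =
          Fermat.Agent.H23.jBarD (M * p) d' hd') ∧
    (∀ x, nmW M p hcop (heckeAlphaBar Qb M p x) = heckeBetaBar Qb M p x) ∧
    (∀ x, nmW M p hcop (heckeBetaBar Qb M p x) = heckeAlphaBar Qb M p x) ∧
    (∀ z, nmW M p hcop (nmW M p hcop z) = z) :=
  Classical.choose_spec (Fermat.Agent.H62.SS.exists_atkinLehnerBar_gens M p hcop)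

/-- the Gauss valuation ring at the cusp `0` : `V_0 = W⁻¹ V_∞` -/
def nmV0 : Subring (FLb (M * p)) :=
  (gaussOBar (M * p) A).comap ((nmW M p hcop : FLb (M * p) ≃ₐ[Qb] FLb (M * p)) :
    FLb (M * p) →+* FLb (M * p))

theorem mem_nmV0_iff (f : FLb (M * p)) :
    f ∈ nmV0 M p hcop A ↔ nmW M p hcop f ∈ gaussOBar (M * p) A := Iff.rfl

/-- `W : V_0 → V_∞` -/
def nmWRestrict : nmV0 M p hcop A →+* gaussOBar (M * p) A :=
  RingHom.codRestrict
    (((nmW M p hcop : FLb (M * p) ≃ₐ[Qb] FLb (M * p)) : FLb (M * p) →+* FLb (M * p)).comp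
      (nmV0 M p hcop A).subtype)
    (gaussOBar (M * p) A) (fun x => x.2)

theorem coe_nmWRestrict (f : nmV0 M p hcop A) :
    ((nmWRestrict M p hcop A f : gaussOBar (M * p) A) : FLb (M * p)) =
      nmW M p hcop (f : FLb (M * p)) := rfl

/-- the reduction `V_0 → F_0 = F_∞` : `red_0 = red_∞ ∘ W` -/
def nmRed0 : nmV0 M p hcop A →+* NmF (M * p) A :=
  (nmRedOo (M * p) A).comp (nmWRestrict M p hcop A)

theorem nmRed0_apply (f : nmV0 M p hcop A) :
    nmRed0 M p hcop A f = nmRedOo (M * p) A ⟨nmW M p hcop (f : FLb (M * p)), f.2⟩ := rfl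

end AL

/-! ### Charts, centres, specialisation -/

section Centre

variable (N : ℕ) (A : ValuationSubring Qb)

/-- the `j`-function -/
def nmJ [NeZero N] : FLb N := Fermat.Agent.H23.jBarD N 1 (one_dvd N)

/-- the ring `A[y] ⊆ F` -/
def nmPoly (y : FLb N) : Subring (FLb N) :=
  Subring.closure ((fun c : Qb => algebraMap Qb (FLb N) c) '' (A : Set Qb) ∪ {y})

/-- the `ℚ̄`-chart `B̄(y)` : the integral closure of `A[y]` in `F` -/
def nmChart (y : FLb N) : Subring (FLb N) :=
  letI : Algebra ↥(nmPoly N A y) (FLb N) := (nmPoly N A y).subtype.toAlgebra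
  (integralClosure ↥(nmPoly N A y) (FLb N)).toSubring

theorem mem_nmChart_iff (y f : FLb N) :
    f ∈ nmChart N A y ↔ (nmPoly N A y).subtype.IsIntegralElem f := Iff.rfl

variable {N}

/-- `{f | f(P) ∈ A}` : the composite valuation ring of `P` and `A` -/
def nmInt (P : Place Qb (FLb N)) : Set (FLb N) := {f | ∃ c ∈ A, HasValue P f c}

/-- `{f | f(P) ∈ 𝔪_A}` : its maximal ideal -/
def nmMax (P : Place Qb (FLb N)) : Set (FLb N) := {f | ∃ c ∈ A.nonunits, HasValue P f c}

open Classical in
/-- the chart of `P` : `j` if `j(P) ∈ A`, `j⁻¹` otherwise -/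
def nmY [NeZero N] (P : Place Qb (FLb N)) : FLb N :=
  if nmJ N ∈ nmInt A P then nmJ N else (nmJ N)⁻¹

/-- the centre of `P` : the maximal ideal `{f ∈ B̄(y) | f(P) ∈ 𝔪_A}` of its chart -/
def nmCentre [NeZero N] (P : Place Qb (FLb N)) : Set (FLb N) :=
  {f | f ∈ nmChart N A (nmY A P) ∧ f ∈ nmMax A P}

theorem mem_nmCentre_iff [NeZero N] (P : Place Qb (FLb N)) (f : FLb N) :
    f ∈ nmCentre A P ↔ f ∈ nmChart N A (nmY A P) ∧ ∃ c ∈ A.nonunits, HasValue P f c := Iff.rfl

end Centre

section Spec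

variable (M p : ℕ) [NeZero M] [NeZero p] (hcop : Nat.Coprime M p) (A : ValuationSubring Qb)

/-- the place `Q` of `F_∞` lies over the centre `S` : `red_∞ (S ∩ V_∞) ⊆ 𝔪_Q` -/
def NmSpecOo (S : Set (FLb (M * p))) (Q : Place (kRes A) (NmF (M * p) A)) : Prop :=
  ∀ f ∈ S, ∀ h : f ∈ gaussOBar (M * p) A,
    nmRedOo (M * p) A ⟨f, h⟩ ∈ Q.toValuationSubring.nonunits

/-- the place `Q` of `F_0` lies over the centre `S` : `red_0 (S ∩ V_0) ⊆ 𝔪_Q` -/
def NmSpecZero (S : Set (FLb (M * p))) (Q : Place (kRes A) (NmF (M * p) A)) : Prop :=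
  ∀ f ∈ S, ∀ h : f ∈ nmV0 M p hcop A,
    nmRed0 M p hcop A ⟨f, h⟩ ∈ Q.toValuationSubring.nonunits

/-- the centre `S` lies on the component `C_∞` -/
def NmOnOo (S : Set (FLb (M * p))) : Prop := ∃ Q, NmSpecOo M p A S Q

/-- the centre `S` lies on the component `C_0` -/
def NmOnZero (S : Set (FLb (M * p))) : Prop := ∃ Q, NmSpecZero M p hcop A S Q

/-- `S` is a node : the centre of a place, lying on both components -/
def NmIsNode (S : Set (FLb (M * p))) : Prop :=
  (∃ P : Place Qb (FLb (M * p)), nmCentre A P = S) ∧ NmOnOo M p A S ∧ NmOnZero M p hcop A S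

/-- the type of nodes -/
def NmNode : Type := {S : Set (FLb (M * p)) // NmIsNode M p hcop A S}

/-- the branch of a node on `C_∞` -/
def nmNOo (ν : NmNode M p hcop A) : Place (kRes A) (NmF (M * p) A) :=
  Classical.choose ν.2.2.1

theorem nmNOo_spec (ν : NmNode M p hcop A) : NmSpecOo M p A ν.1 (nmNOo M p hcop A ν) :=
  Classical.choose_spec ν.2.2.1

/-- the branch of a node on `C_0` -/
def nmN0 (ν : NmNode M p hcop A) : Place (kRes A) (NmF (M * p) A) :=
  Classical.choose ν.2.2.2

theorem nmN0_spec (ν : NmNode M p hcop A) : NmSpecZero M p hcop A ν.1 (nmN0 M p hcop A ν) :=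
  Classical.choose_spec ν.2.2.2

/-- **[TOT]** every centre lies on one of the two components. -/
def NmTot : Prop :=
  ∀ P : Place Qb (FLb (M * p)),
    NmOnOo M p A (nmCentre A P) ∨ NmOnZero M p hcop A (nmCentre A P)

variable {M p hcop A}

open Classical in
/-- the specialisation of points -/
def nmR (htot : NmTot M p hcop A) (P : Place Qb (FLb (M * p))) :
    NPt (Place (kRes A) (NmF (M * p) A)) (Place (kRes A) (NmF (M * p) A)) (NmNode M p hcop A) :=
  if h : NmIsNode M p hcop A (nmCentre A P) then NPt.node ⟨nmCentre A P, h⟩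
  else if h' : NmOnOo M p A (nmCentre A P) then NPt.oo (Classical.choose h')
  else NPt.zero (Classical.choose ((htot P).resolve_left h'))

/-- **THE NODAL DATA of `X₀(M p)` at `A`.** -/
def nmG (htot : NmTot M p hcop A) :
    NodalData (M * p) A (NmF (M * p) A) (NmF (M * p) A) (NmNode M p hcop A) where
  Voo := gaussOBar (M * p) A
  V0 := nmV0 M p hcop A
  redOo := nmRedOo (M * p) A
  red0 := nmRed0 M p hcop A
  nOo := nmNOo M p hcop A
  n0 := nmN0 M p hcop A
  r := nmR htot

theorem nmR_node_iff (htot : NmTot M p hcop A) (P : Place Qb (FLb (M * p)))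
    (ν : NmNode M p hcop A) : nmR htot P = NPt.node ν ↔ nmCentre A P = ν.1 := by
  classical
  constructor
  · intro h
    by_cases h1 : NmIsNode M p hcop A (nmCentre A P)
    · rw [nmR, dif_pos h1] at h
      rw [← NPt.node.inj h]
    · by_cases h2 : NmOnOo M p A (nmCentre A P)
      · rw [nmR, dif_neg h1, dif_pos h2] at h
        exact absurd h (by simp)
      · rw [nmR, dif_neg h1, dif_neg h2] at h
        exact absurd h (by simp)
  · intro h
    have h1 : NmIsNode M p hcop A (nmCentre A P) := by rw [h]; exact ν.2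
    rw [nmR, dif_pos h1]
    congr 1
    exact Subtype.ext h

theorem nmR_oo (htot : NmTot M p hcop A) (P : Place Qb (FLb (M * p)))
    (Q : Place (kRes A) (NmF (M * p) A)) (h : nmR htot P = NPt.oo Q) :
    ¬ NmIsNode M p hcop A (nmCentre A P) ∧ NmSpecOo M p A (nmCentre A P) Q := by
  classical
  by_cases h1 : NmIsNode M p hcop A (nmCentre A P)
  · rw [nmR, dif_pos h1] at h
    exact absurd h (by simp)
  · by_cases h2 : NmOnOo M p A (nmCentre A P)
    · rw [nmR, dif_neg h1, dif_pos h2] at h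
      rw [← NPt.oo.inj h]
      exact ⟨h1, Classical.choose_spec h2⟩
    · rw [nmR, dif_neg h1, dif_neg h2] at h
      exact absurd h (by simp)

theorem nmR_zero (htot : NmTot M p hcop A) (P : Place Qb (FLb (M * p)))
    (Q : Place (kRes A) (NmF (M * p) A)) (h : nmR htot P = NPt.zero Q) :
    ¬ NmOnOo M p A (nmCentre A P) ∧ NmSpecZero M p hcop A (nmCentre A P) Q := by
  classical
  by_cases h1 : NmIsNode M p hcop A (nmCentre A P)
  · rw [nmR, dif_pos h1] at h
    exact absurd h (by simp)
  · by_cases h2 : NmOnOo M p A (nmCentre A P)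
    · rw [nmR, dif_neg h1, dif_pos h2] at h
      exact absurd h (by simp)
    · rw [nmR, dif_neg h1, dif_neg h2] at h
      rw [← NPt.zero.inj h]
      exact ⟨h2, Classical.choose_spec ((htot P).resolve_left h2)⟩

end Spec

end Fermat.Agent.H84.ORD
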