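import Fermat.Agent.H84.ORD.NodalModel

/-!
# P-ORD, block B1 : THE INSTANCE - the `ℚ̄`-level local API and the target (helper84)

Notation of `Fermat.Agent.H84.ORD.NodalModel` : `F = FLb (M p)`, `V_∞ = gaussOBar (M p) A`,
`V_0 = nmV0`, `red_∞ = nmRedOo`, `red_0 = nmRed0`, `B̄ = nmChart (M p) A (nmY A P)` the chart of
the place `P`, `𝔐_P = nmMax A P`, centre `nmCentre A P = B̄ ∩ 𝔐_P`.

THE LOCAL API (all statements at the `ℚ̄`-level; to be proved by descent to number fields from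
the landed P-SS / P-SS2 statements on the models `chartClosure A₀ (ModelField K₁ (M p)) y`):

* `NmIdealOo`, `NmIdealZero` : `𝔮_∞ ∩ B̄ ⊆ 𝔐_P`, `𝔮_0 ∩ B̄ ⊆ 𝔐_P` (the centre lies on `C_∞`, `C_0`);
* **[TOTI]** `NmTotIdealStatement` : every centre lies on `C_∞` or on `C_0`;
* **[DVR]** `NmDvrOoStatement`, `NmDvrZeroStatement` : if the centre of `P` lies on `C_∞`, there is
  a place `Q` of `F_∞` over it with `O_Q ⊆ red_∞ (B̄_𝔪)` (the component is normal at the point);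
* **[SURJ]** `NmSurjOoStatement`, `NmSurjZeroStatement` : every place of `F_∞` (`F_0`) lies over
  the centre of some place `P` (properness + existence of horizontal points);
* **[HART]** `NmHartogsStatement` : LOCAL HARTOGS: `g` without pole along the components through
  the centre `𝔪` of `P` and without pole at the places centred at `𝔪` lies in `B̄_𝔪`;
* **[PG]** `NmPlaceGenStatement` : PLACE GENERATORS: `P` has a uniformiser which is a unit at the
  other places with the same centre;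
* **[XY]** `NmCrossStatement` : at a node: `d X Y = p ψ`, `d, ψ ∉ 𝔪`, `X ∈ 𝔮_∞`, `Y ∈ 𝔮_0`,
  `red_∞ Y` a uniformiser of the branch on `C_∞`, `red_0 X` a uniformiser of the branch on `C_0`;
  nodes are not cuspidal;
* **[PAIR]** `NmLatticeStatement` : the pair lattice property (M5).

THE TARGET : `NodalInstanceStatement M p`.
-/

set_option autoImplicit false
set_option linter.unusedSectionVars false

noncomputable section

open AlgebraicCurve ModularCurve

namespace Fermat.Agent.H84.ORD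

open Fermat.Agent.H72.FF Fermat.Agent.H18.ORD Fermat.Agent.H66 Fermat.Agent.H27.ESD

/-- **Standing hypotheses of the instance.** -/
structure NmSetup (M p : ℕ) (A : ValuationSubring Qb) : Prop where
  prime : p.Prime
  odd : p ≠ 2
  cop : Nat.Coprime M p
  four : 4 ∣ M
  liesOver : A.LiesOverPrime p

section Defs

variable (M p : ℕ) [NeZero M] [NeZero p] (hcop : Nat.Coprime M p) (A : ValuationSubring Qb)

/-- `𝔮_∞ ∩ B̄ ⊆ 𝔐_P` : the centre of `P` lies on `C_∞` (ideal form). -/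
def NmIdealOo (P : Place Qb (FLb (M * p))) : Prop :=
  ∀ f ∈ nmChart (M * p) A (nmY A P), ∀ h : f ∈ gaussOBar (M * p) A,
    nmRedOo (M * p) A ⟨f, h⟩ = 0 → f ∈ nmMax A P

/-- `𝔮_0 ∩ B̄ ⊆ 𝔐_P` : the centre of `P` lies on `C_0` (ideal form). -/
def NmIdealZero (P : Place Qb (FLb (M * p))) : Prop :=
  ∀ f ∈ nmChart (M * p) A (nmY A P), ∀ h : f ∈ nmV0 M p hcop A,
    nmRed0 M p hcop A ⟨f, h⟩ = 0 → f ∈ nmMax A P

/-- `z ∈ red_∞ (B̄_𝔪)`, `𝔪` the centre of `P`. -/
def NmLocalOo (P : Place Qb (FLb (M * p))) (z : NmF (M * p) A) : Prop :=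
  ∃ (f s : FLb (M * p)) (hf : f ∈ gaussOBar (M * p) A) (hs : s ∈ gaussOBar (M * p) A),
    f ∈ nmChart (M * p) A (nmY A P) ∧ s ∈ nmChart (M * p) A (nmY A P) ∧ s ∉ nmMax A P ∧
    nmRedOo (M * p) A ⟨f, hf⟩ = z * nmRedOo (M * p) A ⟨s, hs⟩

/-- `z ∈ red_0 (B̄_𝔪)`, `𝔪` the centre of `P`. -/
def NmLocalZero (P : Place Qb (FLb (M * p))) (z : NmF (M * p) A) : Prop :=
  ∃ (f s : FLb (M * p)) (hf : f ∈ nmV0 M p hcop A) (hs : s ∈ nmV0 M p hcop A),
    f ∈ nmChart (M * p) A (nmY A P) ∧ s ∈ nmChart (M * p) A (nmY A P) ∧ s ∉ nmMax A P ∧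
    nmRed0 M p hcop A ⟨f, hf⟩ = z * nmRed0 M p hcop A ⟨s, hs⟩

end Defs

/-! ### The local API -/

/-- **[TOTI]** every centre lies on `C_∞` or on `C_0` (`𝔮_∞ 𝔮_0 ⊆ 𝔪_A B̄`). -/
def NmTotIdealStatement (M p : ℕ) [NeZero M] [NeZero p] : Prop :=
  ∀ (A : ValuationSubring Qb) (h : NmSetup M p A) (P : Place Qb (FLb (M * p))),
    NmIdealOo M p A P ∨ NmIdealZero M p h.cop A P

/-- **[DVR], component `∞`** : if the centre `𝔪` of `P` lies on `C_∞`, there is a place `Q` of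
`F_∞` over `𝔪` with `O_Q ⊆ red_∞ (B̄_𝔪)`. -/
def NmDvrOoStatement (M p : ℕ) [NeZero M] [NeZero p] : Prop :=
  ∀ (A : ValuationSubring Qb) (_ : NmSetup M p A) (P : Place Qb (FLb (M * p))),
    NmIdealOo M p A P →
    ∃ Q : Place (kRes A) (NmF (M * p) A), NmSpecOo M p A (nmCentre A P) Q ∧
      ∀ z ∈ Q.toValuationSubring, NmLocalOo M p A P z

/-- **[DVR], component `0`.** -/
def NmDvrZeroStatement (M p : ℕ) [NeZero M] [NeZero p] : Prop :=
  ∀ (A : ValuationSubring Qb) (h : NmSetup M p A) (P : Place Qb (FLb (M * p))),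
    NmIdealZero M p h.cop A P →
    ∃ Q : Place (kRes A) (NmF (M * p) A), NmSpecZero M p h.cop A (nmCentre A P) Q ∧
      ∀ z ∈ Q.toValuationSubring, NmLocalZero M p h.cop A P z

/-- **[SURJ], component `∞`** : every place of `F_∞` lies over the centre of a place of `F`. -/
def NmSurjOoStatement (M p : ℕ) [NeZero M] [NeZero p] : Prop :=
  ∀ (A : ValuationSubring Qb) (_ : NmSetup M p A) (Q : Place (kRes A) (NmF (M * p) A)),
    ∃ P : Place Qb (FLb (M * p)), NmSpecOo M p A (nmCentre A P) Q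

/-- **[SURJ], component `0`.** -/
def NmSurjZeroStatement (M p : ℕ) [NeZero M] [NeZero p] : Prop :=
  ∀ (A : ValuationSubring Qb) (h : NmSetup M p A) (Q : Place (kRes A) (NmF (M * p) A)),
    ∃ P : Place Qb (FLb (M * p)), NmSpecZero M p h.cop A (nmCentre A P) Q

/-- **[HART] LOCAL HARTOGS at the `ℚ̄`-level.**  Let `𝔪` be the centre of `P`.  If `g ∈ V_∞` when
`𝔪` lies on `C_∞`, `g ∈ V_0` when `𝔪` lies on `C_0`, and `g` has no pole at the places centred at
`𝔪`, then `g ∈ B̄_𝔪` : `s g ∈ B̄` for some `s ∈ B̄ ∖ 𝔪`. -/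
def NmHartogsStatement (M p : ℕ) [NeZero M] [NeZero p] : Prop :=
  ∀ (A : ValuationSubring Qb) (h : NmSetup M p A) (P : Place Qb (FLb (M * p)))
    (g : FLb (M * p)),
    (NmIdealOo M p A P → g ∈ gaussOBar (M * p) A) →
    (NmIdealZero M p h.cop A P → g ∈ nmV0 M p h.cop A) →
    (∀ P' : Place Qb (FLb (M * p)), nmCentre A P' = nmCentre A P → g = 0 ∨ 0 ≤ P'.ord g) →
    ∃ s ∈ nmChart (M * p) A (nmY A P), s ∉ nmMax A P ∧ s * g ∈ nmChart (M * p) A (nmY A P)

/-- **[PG] PLACE GENERATORS at the `ℚ̄`-level** : every place `P` has a uniformiser which is a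
unit at all other places with the same centre. -/
def NmPlaceGenStatement (M p : ℕ) [NeZero M] [NeZero p] : Prop :=
  ∀ (A : ValuationSubring Qb) (_ : NmSetup M p A) (P : Place Qb (FLb (M * p))),
    ∃ t : FLb (M * p), P.ord t = 1 ∧
      ∀ P' : Place Qb (FLb (M * p)), nmCentre A P' = nmCentre A P → P' ≠ P → P'.ord t = 0

/-- **[XY] THE NODES** : if the centre `𝔪` of `P` lies on both components, then `𝔪` is not
cuspidal and there are `X, Y, d, ψ ∈ B̄(j)` with `d X Y = p ψ`, `d, ψ ∉ 𝔪`, `X, Y ∈ 𝔪`,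
`red_∞ X = 0`, `red_0 Y = 0`, and places `Q` of `F_∞`, `Q'` of `F_0` over `𝔪` at which `red_∞ Y`,
resp. `red_0 X`, is a uniformiser. -/
def NmCrossStatement (M p : ℕ) [NeZero M] [NeZero p] : Prop :=
  ∀ (A : ValuationSubring Qb) (h : NmSetup M p A) (P : Place Qb (FLb (M * p))),
    NmIdealOo M p A P → NmIdealZero M p h.cop A P →
    nmY A P = nmJ (M * p) ∧
    ∃ X Y d ψ : FLb (M * p),
      X ∈ nmChart (M * p) A (nmJ (M * p)) ∧ Y ∈ nmChart (M * p) A (nmJ (M * p)) ∧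
      d ∈ nmChart (M * p) A (nmJ (M * p)) ∧ ψ ∈ nmChart (M * p) A (nmJ (M * p)) ∧
      d * X * Y = algebraMap Qb (FLb (M * p)) (p : Qb) * ψ ∧
      d ∉ nmMax A P ∧ ψ ∉ nmMax A P ∧ X ∈ nmMax A P ∧ Y ∈ nmMax A P ∧
      (∃ hX : X ∈ gaussOBar (M * p) A, nmRedOo (M * p) A ⟨X, hX⟩ = 0) ∧
      (∃ hY : Y ∈ nmV0 M p h.cop A, nmRed0 M p h.cop A ⟨Y, hY⟩ = 0) ∧
      ∃ Q Q' : Place (kRes A) (NmF (M * p) A),
        NmSpecOo M p A (nmCentre A P) Q ∧ NmSpecZero M p h.cop A (nmCentre A P) Q' ∧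
        (∃ hY : Y ∈ gaussOBar (M * p) A, Q.ord (nmRedOo (M * p) A ⟨Y, hY⟩) = 1) ∧
        (∃ hX : X ∈ nmV0 M p h.cop A, Q'.ord (nmRed0 M p h.cop A ⟨X, hX⟩) = 1)

/-- **[PAIR] THE PAIR LATTICE (M5)** : a non-constant `f` has a normalisation `α f + β` in
`V_∞ ∩ V_0` whose reduction is not a constant pair `(κ, κ)`. -/
def NmLatticeStatement (M p : ℕ) [NeZero M] [NeZero p] : Prop :=
  ∀ (A : ValuationSubring Qb) (h : NmSetup M p A) (f : FLb (M * p)),
    (∀ c : Qb, f ≠ algebraMap Qb (FLb (M * p)) c) →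
    ∃ (α β : Qb)
      (h1 : algebraMap Qb (FLb (M * p)) α * f + algebraMap Qb (FLb (M * p)) β ∈
        gaussOBar (M * p) A)
      (h0 : algebraMap Qb (FLb (M * p)) α * f + algebraMap Qb (FLb (M * p)) β ∈
        nmV0 M p h.cop A), α ≠ 0 ∧
      ¬ ∃ κ : kRes A, nmRedOo (M * p) A ⟨_, h1⟩ = algebraMap (kRes A) (NmF (M * p) A) κ ∧
        nmRed0 M p h.cop A ⟨_, h0⟩ = algebraMap (kRes A) (NmF (M * p) A) κ

/-! ### The targets -/

/-- **[TOT]** (from [TOTI] + [DVR]). -/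
def NmTotStatement (M p : ℕ) [NeZero M] [NeZero p] : Prop :=
  ∀ (A : ValuationSubring Qb) (h : NmSetup M p A), NmTot M p h.cop A

/-- **[RV]** the nodal reduction hypotheses for `X₀(M p)`. -/
def NmRvHypStatement (M p : ℕ) [NeZero M] [NeZero p] : Prop :=
  ∀ (A : ValuationSubring Qb) (h : NmSetup M p A) (htot : NmTot M p h.cop A),
    NodalRvHyp p (nmG htot)

/-- **[GAL]** the Galois compatibility. -/
def NmGalHypStatement (M p : ℕ) [NeZero M] [NeZero p] : Prop :=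
  ∀ (A : ValuationSubring Qb) (h : NmSetup M p A) (htot : NmTot M p h.cop A),
    NodalGalHyp (nmG htot)

/-- **[LIFT]** the lifting hypotheses. -/
def NmLiftStatement (M p : ℕ) [NeZero M] [NeZero p] : Prop :=
  ∀ (A : ValuationSubring Qb) (h : NmSetup M p A) (htot : NmTot M p h.cop A),
    NodalLift (nmG htot)

/-- **[NC]** Riemann packages of the generic fibre and of the components, finitely many nodes,
at least one, and the node count `g_N ≤ 2 g' + s - 1`. -/
def NmNodeCountStatement (M p : ℕ) [NeZero M] [NeZero p] : Prop :=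
  ∀ (A : ValuationSubring Qb) (h : NmSetup M p A),
    Finite (NmNode M p h.cop A) ∧ Nonempty (NmNode M p h.cop A) ∧
    ∃ g g' : ℕ, RiemannPackage Qb (FLb (M * p)) g ∧
      RiemannPackage (kRes A) (NmF (M * p) A) g' ∧
      g + 1 ≤ 2 * g' + Nat.card (NmNode M p h.cop A)

/-- **THE TARGET OF BLOCK B1 (instance)** : the nodal data `nmG` of `X₀(M p)` satisfies the whole
abstract interface of helper18 (`NodalRvHyp`, `NodalGalHyp`, `NodalLift`) and the node count. -/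
def NodalInstanceStatement (M p : ℕ) [NeZero M] [NeZero p] : Prop :=
  ∀ (A : ValuationSubring Qb) (h : NmSetup M p A),
    ∃ htot : NmTot M p h.cop A,
      NodalRvHyp p (nmG htot) ∧ NodalGalHyp (nmG htot) ∧ NodalLift (nmG htot) ∧
      Finite (NmNode M p h.cop A) ∧ Nonempty (NmNode M p h.cop A) ∧
      ∃ g g' : ℕ, RiemannPackage Qb (FLb (M * p)) g ∧
        RiemannPackage (kRes A) (NmF (M * p) A) g' ∧
        g + 1 ≤ 2 * g' + Nat.card (NmNode M p h.cop A)

theorem nodalInstance_of_parts {M p : ℕ} [NeZero M] [NeZero p]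
    (hT : NmTotStatement M p) (hR : NmRvHypStatement M p) (hG : NmGalHypStatement M p)
    (hL : NmLiftStatement M p) (hC : NmNodeCountStatement M p) :
    NodalInstanceStatement M p := by
  intro A h
  obtain ⟨h1, h2, h3⟩ := hC A h
  exact ⟨hT A h, hR A h _, hG A h _, hL A h _, h1, h2, h3⟩

end Fermat.Agent.H84.ORD
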