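import Fermat.Agent.H84.ORD.NodalSpec

/-!
# P-ORD, block B1-SPEC : final form (helper84)

* `nmChartSoft` : `j, j⁻¹ ∈ V_∞ ∩ V_0` (unconditional);
* `nm_jBarD_mem`, `nm_jBarD_red`, `nm_jBarD_inv_mem` : the generators `j(q^d)` lie in the Gauss ring, with reduction `j(q^d)` over `k`, and are units;
* `nmBase_of_soft` : `NmBase M p A` from `NmSoftStatement M p`;
* `nmSpec_of_soft` : `NmSoftStatement M p → NmSpecStatement M p`  (row B1-SPEC).
-/

set_option autoImplicit false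
set_option linter.unusedSectionVars false

noncomputable section
open AlgebraicCurve ModularCurve
namespace Fermat.Agent.H84.ORD
open Fermat.Agent.H72.FF Fermat.Agent.H18.ORD Fermat.Agent.H66 Fermat.Agent.H27.ESD

theorem nm_qExpand_jq_ne_zero (k : Type) [Field k] (d : ℕ) [NeZero d] :
    qExpand k d (jqModC k) ≠ 0 := by
  intro h
  have h1 := qExpand_coeff_mul (N := d) (jqModC k) (-1)
  rw [h] at h1
  have h2 := coeff_jqModC_neg_one k
  rw [← h1] at h2
  simp at h2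

theorem nm_jBarD_coe (N d : ℕ) [NeZero N] [NeZero d] (hd : d ∣ N) (A : ValuationSubring Qb) :
    ((Fermat.Agent.H23.jBarD N d hd : FLb N) : LaurentSeries Qb) =
      vIota A (qExpand ↥A d (jqModC ↥A)) := by
  rw [← qExpand_jqModC_eq_vIota A d]
  show coeffEmb Qb (qExpand ℚ d jq) = _
  rw [coeffEmb, coeffMap_qExpand, ← jqModC_rat, coeffMap_jqModC]

theorem nm_jBarD_mem (N d : ℕ) [NeZero N] [NeZero d] (hd : d ∣ N) (A : ValuationSubring Qb) :
    Fermat.Agent.H23.jBarD N d hd ∈ gaussOBar N A :=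
  mem_gaussOBar_of_eq_vIota N A (nm_jBarD_coe N d hd A)

theorem nm_jBarD_red (N d : ℕ) [NeZero N] [NeZero d] (hd : d ∣ N) (A : ValuationSubring Qb) :
    gaussRedBar N A ⟨Fermat.Agent.H23.jBarD N d hd, nm_jBarD_mem N d hd A⟩ =
      qExpand (kRes A) d (jqModC (kRes A)) := by
  rw [gaussRedBar_of_eq_vIota N A (nm_jBarD_coe N d hd A), vRho_qExpand_jqModC]

theorem nm_jBarD_inv_mem (N d : ℕ) [NeZero N] [NeZero d] (hd : d ∣ N) (A : ValuationSubring Qb) :
    (Fermat.Agent.H23.jBarD N d hd)⁻¹ ∈ gaussOBar N A := by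
  have := inv_mem_gaussOBar N A (u := ⟨Fermat.Agent.H23.jBarD N d hd, nm_jBarD_mem N d hd A⟩)
    (by rw [nm_jBarD_red]; exact nm_qExpand_jq_ne_zero _ d)
  exact this

theorem nmChartSoft (M p : ℕ) [NeZero M] [NeZero p] : NmChartSoftStatement M p := by
  intro A h
  refine ⟨nm_jBarD_mem _ 1 _ A, nm_jBarD_inv_mem _ 1 _ A, ?_, ?_⟩
  · obtain ⟨d'', hd0, hd'', h1, -⟩ := (nmW_spec M p h.cop).1 1 inferInstance (one_dvd _)
    rw [mem_nmV0_iff]
    show nmW M p h.cop (nmJ (M * p)) ∈ _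
    unfold nmJ
    rw [h1]
    exact nm_jBarD_mem _ d'' hd'' A
  · obtain ⟨d'', hd0, hd'', h1, -⟩ := (nmW_spec M p h.cop).1 1 inferInstance (one_dvd _)
    rw [mem_nmV0_iff, map_inv₀]
    unfold nmJ
    rw [h1]
    exact nm_jBarD_inv_mem _ d'' hd'' A

/-- `NmBase M p A` from the soft facts. -/
theorem nmBase_of_soft {M p : ℕ} [NeZero M] [NeZero p] (hS : NmSoftStatement M p)
    {A : ValuationSubring Qb} (h : NmSetup M p A) : NmBase M p A :=
  nmBase_of hS (nmChartSoft M p) h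

/-- **Row B1-SPEC** : `nOo_inj`, `n0_inj`, `r_oo`, `r_zero` for `nmG` from the soft facts. -/
theorem nmSpec_of_soft {M p : ℕ} [NeZero M] [NeZero p] (hS : NmSoftStatement M p) :
    NmSpecStatement M p :=
  nmSpec hS (nmChartSoft M p)

end Fermat.Agent.H84.ORD
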