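import Fermat.Agent.H84.ORD.NodalModelAPI

/-!
# P-ORD, block B1 : THE INSTANCE - the field groups of `NodalRvHyp p (nmG htot)` as rows (helper84)

Each Prop below is one field group of `NodalRvHyp` for the concrete data `nmG`; the assembly
`nmRvHyp_of_fields` gives `NmRvHypStatement M p`.

* `NmSoftStatement`   (B1-GAUSS) : const, red_const, norm, inv, surj, ne;
* `NmSpecStatement`   (B1-SPEC)  : nOo_inj, n0_inj, r_oo, r_zero;
* `NmSmoothStatement` (B1-M2)    : smooth_oo, smooth_zero;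
* `NmNodeStatement`   (B1-NODE)  : node_le, node_lt, glue;
* `NmLatticeStatement` (B1-LATT, in `NodalModelAPI`) : lattice.
-/

set_option autoImplicit false
set_option linter.unusedSectionVars false

noncomputable section

open AlgebraicCurve ModularCurve

namespace Fermat.Agent.H84.ORD

open Fermat.Agent.H72.FF Fermat.Agent.H18.ORD Fermat.Agent.H66 Fermat.Agent.H27.ESD

/-- **B1-GAUSS** : the soft fields of `NodalRvHyp` for `V_∞ = gaussOBar`, `V_0 = nmV0`. -/
def NmSoftStatement (M p : ℕ) [NeZero M] [NeZero p] : Prop :=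
  ∀ (A : ValuationSubring Qb) (h : NmSetup M p A),
    (∀ c : Qb, algebraMap Qb (FLb (M * p)) c ∈ gaussOBar (M * p) A ↔ c ∈ A) ∧
    (∀ c : Qb, algebraMap Qb (FLb (M * p)) c ∈ nmV0 M p h.cop A ↔ c ∈ A) ∧
    (∀ (c : A) (hc : algebraMap Qb (FLb (M * p)) (c : Qb) ∈ gaussOBar (M * p) A),
      nmRedOo (M * p) A ⟨_, hc⟩ =
        algebraMap (kRes A) (NmF (M * p) A) (IsLocalRing.residue A c)) ∧
    (∀ (c : A) (hc : algebraMap Qb (FLb (M * p)) (c : Qb) ∈ nmV0 M p h.cop A),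
      nmRed0 M p h.cop A ⟨_, hc⟩ =
        algebraMap (kRes A) (NmF (M * p) A) (IsLocalRing.residue A c)) ∧
    (∀ φ : FLb (M * p), φ ≠ 0 → ∃ (c : Qb) (u : gaussOBar (M * p) A), c ≠ 0 ∧
      nmRedOo (M * p) A u ≠ 0 ∧ φ = algebraMap Qb (FLb (M * p)) c * (u : FLb (M * p))) ∧
    (∀ φ : FLb (M * p), φ ≠ 0 → ∃ (c : Qb) (u : nmV0 M p h.cop A), c ≠ 0 ∧
      nmRed0 M p h.cop A u ≠ 0 ∧ φ = algebraMap Qb (FLb (M * p)) c * (u : FLb (M * p))) ∧
    (∀ u : gaussOBar (M * p) A, nmRedOo (M * p) A u ≠ 0 →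
      (u : FLb (M * p))⁻¹ ∈ gaussOBar (M * p) A) ∧
    (∀ u : nmV0 M p h.cop A, nmRed0 M p h.cop A u ≠ 0 →
      (u : FLb (M * p))⁻¹ ∈ nmV0 M p h.cop A) ∧
    Function.Surjective (nmRedOo (M * p) A) ∧
    Function.Surjective (nmRed0 M p h.cop A) ∧
    gaussOBar (M * p) A ≠ nmV0 M p h.cop A

/-- **B1-SPEC** : the fields `nOo_inj`, `n0_inj`, `r_oo`, `r_zero`. -/
def NmSpecStatement (M p : ℕ) [NeZero M] [NeZero p] : Prop :=
  ∀ (A : ValuationSubring Qb) (h : NmSetup M p A) (htot : NmTot M p h.cop A),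
    Function.Injective (nmG htot).nOo ∧ Function.Injective (nmG htot).n0 ∧
    (∀ P Q, (nmG htot).r P = NPt.oo Q → Q ∉ Set.range (nmG htot).nOo) ∧
    (∀ P Q, (nmG htot).r P = NPt.zero Q → Q ∉ Set.range (nmG htot).n0)

/-- **B1-M2** : the conservation law at the smooth points. -/
def NmSmoothStatement (M p : ℕ) [NeZero M] [NeZero p] : Prop :=
  ∀ (A : ValuationSubring Qb) (h : NmSetup M p A) (htot : NmTot M p h.cop A),
    (∀ u : (nmG htot).Voo, (nmG htot).redOo u ≠ 0 → ∀ D : Divisor Qb (FLb (M * p)),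
      (∀ P, D P = P.ord (u : FLb (M * p))) →
      ∀ Q : Place (kRes A) (NmF (M * p) A), Q ∉ Set.range (nmG htot).nOo →
        Finsupp.mapDomain (nmG htot).r D (NPt.oo Q) = Q.ord ((nmG htot).redOo u)) ∧
    (∀ w : (nmG htot).V0, (nmG htot).red0 w ≠ 0 → ∀ D : Divisor Qb (FLb (M * p)),
      (∀ P, D P = P.ord (w : FLb (M * p))) →
      ∀ Q : Place (kRes A) (NmF (M * p) A), Q ∉ Set.range (nmG htot).n0 →
        Finsupp.mapDomain (nmG htot).r D (NPt.zero Q) = Q.ord ((nmG htot).red0 w))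

/-- **B1-NODE** : the slope inequalities and the gluing at the nodes. -/
def NmNodeStatement (M p : ℕ) [NeZero M] [NeZero p] : Prop :=
  ∀ (A : ValuationSubring Qb) (h : NmSetup M p A) (htot : NmTot M p h.cop A),
    (∀ (u : (nmG htot).Voo) (w : (nmG htot).V0) (c : Qb), (nmG htot).redOo u ≠ 0 →
      (nmG htot).red0 w ≠ 0 →
      (w : FLb (M * p)) = algebraMap Qb (FLb (M * p)) c * (u : FLb (M * p)) →
      ∀ ν : NmNode M p h.cop A,
        (∀ P, (nmG htot).r P = NPt.node ν → 0 ≤ P.ord (u : FLb (M * p))) →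
        (p : Qb) ^ (((nmG htot).nOo ν).ord ((nmG htot).redOo u)) * c ∈ A ∧
        (p : Qb) ^ (((nmG htot).n0 ν).ord ((nmG htot).red0 w)) * c⁻¹ ∈ A) ∧
    (∀ (u : (nmG htot).Voo) (w : (nmG htot).V0) (c : Qb), (nmG htot).redOo u ≠ 0 →
      (nmG htot).red0 w ≠ 0 →
      (w : FLb (M * p)) = algebraMap Qb (FLb (M * p)) c * (u : FLb (M * p)) →
      ∀ ν : NmNode M p h.cop A,
        (∀ P, (nmG htot).r P = NPt.node ν → 0 ≤ P.ord (u : FLb (M * p))) →
        (∃ P, (nmG htot).r P = NPt.node ν ∧ 0 < P.ord (u : FLb (M * p))) →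
        (p : Qb) ^ (((nmG htot).nOo ν).ord ((nmG htot).redOo u)) * c ∈ A.nonunits ∧
        (p : Qb) ^ (((nmG htot).n0 ν).ord ((nmG htot).red0 w)) * c⁻¹ ∈ A.nonunits) ∧
    (∀ (u : FLb (M * p)) (hu : u ∈ (nmG htot).Voo) (hu0 : u ∈ (nmG htot).V0),
      (nmG htot).redOo ⟨u, hu⟩ ≠ 0 → (nmG htot).red0 ⟨u, hu0⟩ ≠ 0 →
      ∀ ν : NmNode M p h.cop A, (∀ P, (nmG htot).r P = NPt.node ν → P.ord u = 0) →
        ∃ κ : kRes A, κ ≠ 0 ∧
          (nmG htot).redOo ⟨u, hu⟩ - algebraMap (kRes A) (NmF (M * p) A) κ ∈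
            ((nmG htot).nOo ν).toValuationSubring.nonunits ∧
          (nmG htot).red0 ⟨u, hu0⟩ - algebraMap (kRes A) (NmF (M * p) A) κ ∈
            ((nmG htot).n0 ν).toValuationSubring.nonunits)

/-- **Assembly of `NodalRvHyp p (nmG htot)` from the field groups.** -/
theorem nmRvHyp_of_fields {M p : ℕ} [NeZero M] [NeZero p]
    (hSoft : NmSoftStatement M p) (hSpec : NmSpecStatement M p)
    (hSm : NmSmoothStatement M p) (hNode : NmNodeStatement M p)
    (hLat : NmLatticeStatement M p) : NmRvHypStatement M p := by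
  intro A h htot
  obtain ⟨s1, s2, s3, s4, s5, s6, s7, s8, s9, s10, s11⟩ := hSoft A h
  obtain ⟨t1, t2, t3, t4⟩ := hSpec A h htot
  obtain ⟨m1, m2⟩ := hSm A h htot
  obtain ⟨n1, n2, n3⟩ := hNode A h htot
  exact
    { const_oo := s1
      const_zero := s2
      red_const_oo := s3
      red_const_zero := s4
      norm_oo := s5
      norm_zero := s6
      inv_oo := s7
      inv_zero := s8
      surj_oo := s9
      surj_zero := s10
      ne := s11
      nOo_inj := t1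
      n0_inj := t2
      r_oo := t3
      r_zero := t4
      smooth_oo := m1
      smooth_zero := m2
      node_le := n1
      node_lt := n2
      glue := n3
      lattice := hLat A h }

end Fermat.Agent.H84.ORD
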