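import Fermat.Agent.H84.ORD.NodalModelRows
import Fermat.Agent.H23.PlaceBasic

/-!
# P-ORD, block B1-SPEC, part A : the composite valuation ring of a place, charts (helper84)

* `nm_hasValue_iff` : `HasValue P f c ↔ f - c ∈ 𝔪_P`;
* `nmComp A P hdeg : ValuationSubring F` : the composite valuation ring `{f | f(P) ∈ A}`
  (carrier `nmInt A P`), with `nonunits = nmMax A P` (`mem_nonunits_nmComp_iff`);
* `nmChart_le` : the chart `B̄(y)` is contained in every valuation subring containing `A` and
  `y`; `nmChart_le_nmComp` : every `f ∈ B̄(y_P)` has a value in `A` at `P`;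
* `mem_nmCentre_iff'` : `nmCentre A P = B̄ ∩ nonunits (nmComp A P)`; the centre is closed under
  addition and under multiplication by `B̄`; `B̄ = A + centre`.
-/

set_option autoImplicit false
set_option linter.unusedSectionVars false

noncomputable section

open AlgebraicCurve ModularCurve

namespace Fermat.Agent.H84.ORD

open Fermat.Agent.H72.FF Fermat.Agent.H18.ORD Fermat.Agent.H66 Fermat.Agent.H27.ESD

section Comp

variable {N : ℕ} (A : ValuationSubring Qb) (P : Place Qb (FLb N))

theorem nm_mem_nonunits_iff_ord {f : FLb N} :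
    f ∈ P.toValuationSubring.nonunits ↔ f = 0 ∨ 0 < P.ord f := by
  rw [ValuationSubring.mem_nonunits_iff_exists_mem_maximalIdeal]
  constructor
  · rintro ⟨ha, h⟩
    exact (Fermat.Agent.H23.mem_maximalIdeal_iff_ord P ⟨f, ha⟩).1 h
  · intro h
    have hmem : f ∈ P.toValuationSubring := by
      rw [Fermat.Agent.H23.mem_iff_ord]
      rcases h with h | h
      · exact Or.inl h
      · exact Or.inr h.le
    exact ⟨hmem, (Fermat.Agent.H23.mem_maximalIdeal_iff_ord P ⟨f, hmem⟩).2 h⟩

theorem nm_hasValue_iff {f : FLb N} {c : Qb} :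
    HasValue P f c ↔ f - algebraMap Qb (FLb N) c ∈ P.toValuationSubring.nonunits := by
  rw [nm_mem_nonunits_iff_ord, HasValue, sub_eq_zero]
  constructor
  · rintro (h | h)
    · exact Or.inl h
    · exact Or.inr (by omega)
  · rintro (h | h)
    · exact Or.inl h
    · exact Or.inr (by omega)

/-- the valuation of `P` -/
abbrev nmv : Valuation (FLb N) P.toValuationSubring.ValueGroup := P.toValuationSubring.valuation

theorem nmv_lt_one_iff {f : FLb N} : nmv P f < 1 ↔ f ∈ P.toValuationSubring.nonunits :=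
  (ValuationSubring.mem_nonunits_iff _).symm

theorem nmv_const {c : Qb} (hc : c ≠ 0) : nmv P (algebraMap Qb (FLb N) c) = 1 := by
  have h1 : nmv P (algebraMap Qb (FLb N) c) ≤ 1 :=
    (ValuationSubring.valuation_le_one_iff _ _).2 (P.algebraMap_mem' c)
  have h2 : nmv P (algebraMap Qb (FLb N) c⁻¹) ≤ 1 :=
    (ValuationSubring.valuation_le_one_iff _ _).2 (P.algebraMap_mem' c⁻¹)
  have h3 : nmv P (algebraMap Qb (FLb N) c) * nmv P (algebraMap Qb (FLb N) c⁻¹) = 1 := by
    rw [← map_mul, ← map_mul, mul_inv_cancel₀ hc, map_one, map_one]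
  rcases lt_or_eq_of_le h1 with h | h
  · exfalso
    have : nmv P (algebraMap Qb (FLb N) c) * nmv P (algebraMap Qb (FLb N) c⁻¹) < 1 := by
      calc nmv P (algebraMap Qb (FLb N) c) * nmv P (algebraMap Qb (FLb N) c⁻¹)
          ≤ nmv P (algebraMap Qb (FLb N) c) * 1 := by gcongr
        _ = nmv P (algebraMap Qb (FLb N) c) := mul_one _
        _ < 1 := h
    rw [h3] at this
    exact lt_irrefl _ this
  · exact h

theorem nmv_const_le (c : Qb) : nmv P (algebraMap Qb (FLb N) c) ≤ 1 :=
  (ValuationSubring.valuation_le_one_iff _ _).2 (P.algebraMap_mem' c)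

theorem nm_hasValue_iff_v {f : FLb N} {c : Qb} :
    HasValue P f c ↔ nmv P (f - algebraMap Qb (FLb N) c) < 1 := by
  rw [nm_hasValue_iff, nmv_lt_one_iff]

/-- uniqueness of the value -/
theorem nm_hasValue_unique {f : FLb N} {c c' : Qb} (h : HasValue P f c) (h' : HasValue P f c') :
    c = c' := by
  rw [nm_hasValue_iff_v] at h h'
  by_contra hne
  have hcc : c' - c ≠ 0 := sub_ne_zero.2 (Ne.symm hne)
  have h1 : nmv P (algebraMap Qb (FLb N) (c' - c)) = 1 := nmv_const P hcc
  have h2 : algebraMap Qb (FLb N) (c' - c) =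
      (f - algebraMap Qb (FLb N) c) - (f - algebraMap Qb (FLb N) c') := by
    rw [map_sub]; ring
  rw [h2] at h1
  have h3 := Valuation.map_sub (nmv P) (f - algebraMap Qb (FLb N) c)
    (f - algebraMap Qb (FLb N) c')
  rw [h1] at h3
  rcases le_max_iff.1 h3 with h4 | h4
  · exact absurd h (not_lt.2 h4)
  · exact absurd h' (not_lt.2 h4)

theorem nm_hasValue_add {f g : FLb N} {c d : Qb} (hf : HasValue P f c) (hg : HasValue P g d) :
    HasValue P (f + g) (c + d) := by
  rw [nm_hasValue_iff_v] at hf hg ⊢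
  have e : f + g - algebraMap Qb (FLb N) (c + d) =
      (f - algebraMap Qb (FLb N) c) + (g - algebraMap Qb (FLb N) d) := by
    rw [map_add]; ring
  rw [e]
  exact Valuation.map_add_lt _ hf hg

theorem nm_hasValue_neg {f : FLb N} {c : Qb} (hf : HasValue P f c) : HasValue P (-f) (-c) := by
  rw [nm_hasValue_iff_v] at hf ⊢
  have e : -f - algebraMap Qb (FLb N) (-c) = -(f - algebraMap Qb (FLb N) c) := by
    rw [map_neg]; ring
  rw [e, Valuation.map_neg]
  exact hf

theorem nm_hasValue_sub {f g : FLb N} {c d : Qb} (hf : HasValue P f c) (hg : HasValue P g d) :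
    HasValue P (f - g) (c - d) := by
  rw [sub_eq_add_neg, sub_eq_add_neg]
  exact nm_hasValue_add P hf (nm_hasValue_neg P hg)

theorem nm_hasValue_const (c : Qb) : HasValue P (algebraMap Qb (FLb N) c) c := Or.inl rfl

theorem nmv_le_one_of_hasValue {f : FLb N} {c : Qb} (hf : HasValue P f c) : nmv P f ≤ 1 := by
  rw [nm_hasValue_iff_v] at hf
  have e : f = (f - algebraMap Qb (FLb N) c) + algebraMap Qb (FLb N) c := by ring
  rw [e]
  exact le_trans (Valuation.map_add _ _ _) (max_le hf.le (nmv_const_le P c))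

theorem nm_hasValue_mul {f g : FLb N} {c d : Qb} (hf : HasValue P f c) (hg : HasValue P g d) :
    HasValue P (f * g) (c * d) := by
  have hf1 := nmv_le_one_of_hasValue P hf
  rw [nm_hasValue_iff_v] at hf hg ⊢
  have e : f * g - algebraMap Qb (FLb N) (c * d) =
      f * (g - algebraMap Qb (FLb N) d) + (f - algebraMap Qb (FLb N) c) * algebraMap Qb (FLb N) d := by
    rw [map_mul]; ring
  rw [e]
  refine Valuation.map_add_lt _ ?_ ?_
  · rw [map_mul]
    calc nmv P f * nmv P (g - algebraMap Qb (FLb N) d)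
        ≤ 1 * nmv P (g - algebraMap Qb (FLb N) d) := by gcongr
      _ = nmv P (g - algebraMap Qb (FLb N) d) := one_mul _
      _ < 1 := hg
  · rw [map_mul]
    calc nmv P (f - algebraMap Qb (FLb N) c) * nmv P (algebraMap Qb (FLb N) d)
        ≤ nmv P (f - algebraMap Qb (FLb N) c) * 1 := by
          gcongr
          exact nmv_const_le P d
      _ = nmv P (f - algebraMap Qb (FLb N) c) := mul_one _
      _ < 1 := hf

theorem nmv_eq_one_of_hasValue {f : FLb N} {c : Qb} (hf : HasValue P f c) (hc : c ≠ 0) :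
    nmv P f = 1 := by
  rw [nm_hasValue_iff_v] at hf
  have e : f = algebraMap Qb (FLb N) c + (f - algebraMap Qb (FLb N) c) := by ring
  have h1 := nmv_const P hc
  rw [e, Valuation.map_add_eq_of_lt_left _ (by rw [h1]; exact hf), h1]

theorem nm_hasValue_inv {f : FLb N} {c : Qb} (hf : HasValue P f c) (hc : c ≠ 0) :
    HasValue P f⁻¹ c⁻¹ := by
  have hv := nmv_eq_one_of_hasValue P hf hc
  have hf0 : f ≠ 0 := by
    intro h0
    rw [h0, map_zero] at hv
    exact zero_ne_one hv
  have hc' : algebraMap Qb (FLb N) c ≠ 0 := by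
    rw [Ne, map_eq_zero_iff _ (algebraMap Qb (FLb N)).injective]
    exact hc
  rw [nm_hasValue_iff_v] at hf ⊢
  have e : f⁻¹ - algebraMap Qb (FLb N) c⁻¹ =
      -(f - algebraMap Qb (FLb N) c) * (f⁻¹ * algebraMap Qb (FLb N) c⁻¹) := by
    rw [map_inv₀]
    field_simp
    ring
  rw [e, map_mul, Valuation.map_neg, map_mul, map_inv₀, hv, inv_one, one_mul,
    nmv_const P (inv_ne_zero hc), mul_one]
  exact hf

theorem nm_hasValue_zero_inv {f : FLb N} (hf : ¬ nmv P f ≤ 1) : HasValue P f⁻¹ 0 := by
  rw [nm_hasValue_iff_v, map_zero, sub_zero, map_inv₀]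
  have h1 : 1 < nmv P f := not_le.1 hf
  exact inv_lt_one_of_one_lt₀ h1

theorem nm_exists_hasValue (hdeg : P.deg = 1) {f : FLb N} (hf : nmv P f ≤ 1) :
    ∃ c : Qb, HasValue P f c := by
  have hmem : f ∈ P.toValuationSubring := (ValuationSubring.valuation_le_one_iff _ _).1 hf
  obtain ⟨c, hc⟩ := Fermat.Agent.H23.exists_const_sub_mem_maximalIdeal P hdeg ⟨f, hmem⟩
  refine ⟨c, ?_⟩
  rw [nm_hasValue_iff, ValuationSubring.mem_nonunits_iff_exists_mem_maximalIdeal]
  exact ⟨(sub_mem hmem (P.algebraMap_mem' c)), hc⟩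

/-- **The composite valuation ring** `{f | f(P) ∈ A}`. -/
def nmComp (hdeg : P.deg = 1) : ValuationSubring (FLb N) where
  carrier := nmInt A P
  mul_mem' := by
    rintro f g ⟨c, hc, hf⟩ ⟨d, hd, hg⟩
    exact ⟨c * d, mul_mem hc hd, nm_hasValue_mul P hf hg⟩
  one_mem' := ⟨1, A.one_mem, by rw [← map_one (algebraMap Qb (FLb N))]; exact nm_hasValue_const P 1⟩
  add_mem' := by
    rintro f g ⟨c, hc, hf⟩ ⟨d, hd, hg⟩
    exact ⟨c + d, add_mem hc hd, nm_hasValue_add P hf hg⟩
  zero_mem' := ⟨0, A.zero_mem, by rw [← map_zero (algebraMap Qb (FLb N))]; exact nm_hasValue_const P 0⟩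
  neg_mem' := by
    rintro f ⟨c, hc, hf⟩
    exact ⟨-c, neg_mem hc, nm_hasValue_neg P hf⟩
  mem_or_inv_mem' := by
    intro f
    by_cases hf : nmv P f ≤ 1
    · obtain ⟨c, hc⟩ := nm_exists_hasValue P hdeg hf
      by_cases hcA : c ∈ A
      · exact Or.inl ⟨c, hcA, hc⟩
      · right
        have hc0 : c ≠ 0 := fun h0 => hcA (h0 ▸ A.zero_mem)
        exact ⟨c⁻¹, (A.mem_or_inv_mem c).resolve_left hcA, nm_hasValue_inv P hc hc0⟩
    · exact Or.inr ⟨0, A.zero_mem, nm_hasValue_zero_inv P hf⟩

theorem mem_nmComp_iff (hdeg : P.deg = 1) {f : FLb N} :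
    f ∈ nmComp A P hdeg ↔ ∃ c ∈ A, HasValue P f c := Iff.rfl

theorem mem_nmComp_iff_nmInt (hdeg : P.deg = 1) {f : FLb N} :
    f ∈ nmComp A P hdeg ↔ f ∈ nmInt A P := Iff.rfl

theorem algebraMap_mem_nmComp (hdeg : P.deg = 1) {c : Qb} (hc : c ∈ A) :
    algebraMap Qb (FLb N) c ∈ nmComp A P hdeg := ⟨c, hc, nm_hasValue_const P c⟩

/-- the nonunits of the composite valuation ring are `nmMax A P` -/
theorem mem_nonunits_nmComp_iff (hdeg : P.deg = 1) {f : FLb N} :
    f ∈ (nmComp A P hdeg).nonunits ↔ f ∈ nmMax A P := by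
  constructor
  · intro h
    have hmem : f ∈ nmComp A P hdeg := ValuationSubring.nonunits_subset h
    obtain ⟨c, hcA, hc⟩ := hmem
    by_cases hcu : c ∈ A.nonunits
    · exact ⟨c, hcu, hc⟩
    · exfalso
      -- `c` is a unit of `A`, so `f⁻¹` has the value `c⁻¹ ∈ A` and `f` is a unit
      have hc0 : c ≠ 0 := by
        intro h0
        apply hcu
        rw [h0]
        exact (ValuationSubring.mem_nonunits_iff _).2 (by simp)
      have hci : c⁻¹ ∈ A := by
        by_contra hci
        apply hcu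
        rw [ValuationSubring.mem_nonunits_iff]
        have h1 : A.valuation c ≤ 1 := (ValuationSubring.valuation_le_one_iff _ _).2 hcA
        have h2 : ¬ A.valuation c⁻¹ ≤ 1 := fun h => hci ((ValuationSubring.valuation_le_one_iff _ _).1 h)
        rw [map_inv₀] at h2
        rcases lt_or_eq_of_le h1 with h3 | h3
        · exact h3
        · rw [h3, inv_one] at h2
          exact absurd le_rfl h2
      have hfi : f⁻¹ ∈ nmComp A P hdeg := ⟨c⁻¹, hci, nm_hasValue_inv P hc hc0⟩
      have hf0 : f ≠ 0 := by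
        intro h0
        have := nmv_eq_one_of_hasValue P hc hc0
        rw [h0, map_zero] at this
        exact zero_ne_one this
      rw [ValuationSubring.mem_nonunits_iff] at h
      have h1 : (nmComp A P hdeg).valuation f⁻¹ ≤ 1 :=
        (ValuationSubring.valuation_le_one_iff _ _).2 hfi
      rw [map_inv₀] at h1
      have h2 : (nmComp A P hdeg).valuation f ≠ 0 := by
        rw [Ne, Valuation.zero_iff]
        exact hf0
      have h3 : 1 ≤ (nmComp A P hdeg).valuation f := by
        rw [inv_le_one₀ (zero_lt_iff.2 h2)] at h1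
        exact h1
      exact absurd h (not_lt.2 h3)
  · rintro ⟨c, hcu, hc⟩
    have hcA : c ∈ A := ValuationSubring.nonunits_subset hcu
    have hmem : f ∈ nmComp A P hdeg := ⟨c, hcA, hc⟩
    rw [ValuationSubring.mem_nonunits_iff]
    by_contra hnot
    have h1 : (nmComp A P hdeg).valuation f ≤ 1 :=
      (ValuationSubring.valuation_le_one_iff _ _).2 hmem
    have h2 : (nmComp A P hdeg).valuation f = 1 := le_antisymm h1 (not_lt.1 hnot)
    have hf0 : f ≠ 0 := by
      intro h0
      rw [h0, map_zero] at h2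
      exact zero_ne_one h2
    have hfi : f⁻¹ ∈ nmComp A P hdeg := by
      rw [← ValuationSubring.valuation_le_one_iff, map_inv₀, h2, inv_one]
    obtain ⟨d, hdA, hd⟩ := hfi
    have hone : HasValue P (f * f⁻¹) (c * d) := nm_hasValue_mul P hc hd
    rw [mul_inv_cancel₀ hf0] at hone
    have h1' : HasValue P (1 : FLb N) 1 := by
      rw [← map_one (algebraMap Qb (FLb N))]; exact nm_hasValue_const P 1
    have hcd : c * d = 1 := nm_hasValue_unique P hone h1'
    -- `c` is a unit of `A`: contradiction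
    rw [ValuationSubring.mem_nonunits_iff] at hcu
    have hd1 : A.valuation d ≤ 1 := (ValuationSubring.valuation_le_one_iff _ _).2 hdA
    have : A.valuation (c * d) < 1 := by
      rw [map_mul]
      calc A.valuation c * A.valuation d ≤ A.valuation c * 1 := by gcongr
        _ = A.valuation c := mul_one _
        _ < 1 := hcu
    rw [hcd, map_one] at this
    exact lt_irrefl _ this

end Comp

end Fermat.Agent.H84.ORD
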