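import Fermat.Agent.H84.ORD.NodalSpecA

/-!
# P-ORD, block B1-SPEC, part B : charts, centres and places over a centre - generic (helper84)

Generic component: a subring `V` of `F = FLb N` with a reduction `red : V →+* Fk` (`Fk` a
`k`-algebra, `k = kRes A`) satisfying the soft facts `CompSoft` (constants, normalisation, units,
`j, j⁻¹ ∈ V`).  `GenSpec V red S Q` : the place `Q` of `Fk` lies over the centre `S`.

* `nmChart_le` : `B̄(y) ⊆ W` for every valuation subring `W ⊇ A[y]`;
* `CompSoft.chart_le` : `B̄(j), B̄(j⁻¹) ⊆ V`;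
* `nmChart_value`, `nmChart_decomp` : `f ∈ B̄(y_P)` has a value `c ∈ A` at `P`, `f - c ∈ centre`;
* `CompSoft.red_mem`, `CompSoft.red_mem_nonunits_iff` : for `f ∈ B̄(y_P)` and `Q` over the centre of
  `P` : `red f ∈ O_Q`, and `red f ∈ 𝔪_Q ↔ f ∈ nmMax A P`;
* `CompSoft.ideal_of_spec` : `𝔮 ∩ B̄ ⊆ 𝔪_P`;
* `CompSoft.centre_eq_of_spec` : two places of `F` with a common place of `Fk` over their
  centres have the same centre;
* `CompSoft.spec_unique` : a place `Q₀` over the centre with `O_{Q₀} ⊆ red (B̄_𝔪)` is THE place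
  over the centre.
-/

set_option autoImplicit false
set_option linter.unusedSectionVars false

noncomputable section

open AlgebraicCurve ModularCurve

namespace Fermat.Agent.H84.ORD

open Fermat.Agent.H72.FF Fermat.Agent.H18.ORD Fermat.Agent.H66 Fermat.Agent.H27.ESD

section Chart

variable {N : ℕ} (A : ValuationSubring Qb)

theorem algebraMap_mem_nmPoly (y : FLb N) {c : Qb} (hc : c ∈ A) :
    algebraMap Qb (FLb N) c ∈ nmPoly N A y :=
  Subring.subset_closure (Or.inl ⟨c, hc, rfl⟩)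

theorem self_mem_nmPoly (y : FLb N) : y ∈ nmPoly N A y :=
  Subring.subset_closure (Or.inr rfl)

theorem nmPoly_le_nmChart (y : FLb N) {f : FLb N} (hf : f ∈ nmPoly N A y) :
    f ∈ nmChart N A y := by
  rw [mem_nmChart_iff]
  exact (nmPoly N A y).subtype.isIntegralElem_map (x := ⟨f, hf⟩)

theorem algebraMap_mem_nmChart (y : FLb N) {c : Qb} (hc : c ∈ A) :
    algebraMap Qb (FLb N) c ∈ nmChart N A y :=
  nmPoly_le_nmChart A y (algebraMap_mem_nmPoly A y hc)

theorem self_mem_nmChart (y : FLb N) : y ∈ nmChart N A y :=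
  nmPoly_le_nmChart A y (self_mem_nmPoly A y)

/-- the chart `B̄(y)` is contained in every valuation subring containing `A` and `y` -/
theorem nmChart_le (W : ValuationSubring (FLb N))
    (hA : ∀ c ∈ A, algebraMap Qb (FLb N) c ∈ W) {y : FLb N} (hy : y ∈ W) {f : FLb N}
    (hf : f ∈ nmChart N A y) : f ∈ W := by
  have hle : nmPoly N A y ≤ W.toSubring := by
    apply Subring.closure_le.2
    rintro x (⟨c, hc, rfl⟩ | hx)
    · exact hA c hc
    · rw [Set.mem_singleton_iff] at hx
      rw [hx]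
      exact hy
  rw [mem_nmChart_iff] at hf
  obtain ⟨q, hq, hq0⟩ := hf
  have hint : IsIntegral W f := by
    refine ⟨q.map (Subring.inclusion hle), hq.map _, ?_⟩
    rw [Polynomial.eval₂_map]
    exact hq0
  obtain ⟨x, hx⟩ := (IsIntegrallyClosed.isIntegral_iff (R := W) (K := FLb N)).1 hint
  rw [← hx]
  exact x.2

variable {A} [NeZero N] (P : Place Qb (FLb N))

theorem nmY_mem_nmComp (hdeg : P.deg = 1) : nmY A P ∈ nmComp A P hdeg := by
  classical
  unfold nmY
  split_ifs with h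
  · exact h
  · exact ((nmComp A P hdeg).mem_or_inv_mem (nmJ N)).resolve_left h

/-- every element of the chart of `P` has a value in `A` at `P` -/
theorem nmChart_value (hdeg : P.deg = 1) {f : FLb N} (hf : f ∈ nmChart N A (nmY A P)) :
    ∃ c ∈ A, HasValue P f c :=
  nmChart_le A (nmComp A P hdeg) (fun _ hc => algebraMap_mem_nmComp A P hdeg hc)
    (nmY_mem_nmComp P hdeg) hf

theorem mem_nmCentre_of_value {f : FLb N} (hf : f ∈ nmChart N A (nmY A P)) {c : Qb}
    (hc : c ∈ A.nonunits) (hv : HasValue P f c) : f ∈ nmCentre A P :=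
  ⟨hf, c, hc, hv⟩

/-- `B̄ = A + centre` -/
theorem nmChart_decomp (hdeg : P.deg = 1) {f : FLb N} (hf : f ∈ nmChart N A (nmY A P)) :
    ∃ c ∈ A, HasValue P f c ∧ f - algebraMap Qb (FLb N) c ∈ nmCentre A P := by
  obtain ⟨c, hcA, hc⟩ := nmChart_value P hdeg hf
  refine ⟨c, hcA, hc, (nmChart N A (nmY A P)).sub_mem hf (algebraMap_mem_nmChart A _ hcA), 0, ?_, ?_⟩
  · exact (ValuationSubring.mem_nonunits_iff _).2 (by simp)
  · have := nm_hasValue_sub P hc (nm_hasValue_const P c)
    rwa [sub_self] at this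

/-- membership in `nmMax` through the value -/
theorem mem_nmMax_iff_of_value {f : FLb N} {c : Qb} (hv : HasValue P f c) :
    f ∈ nmMax A P ↔ c ∈ A.nonunits := by
  constructor
  · rintro ⟨d, hd, hdv⟩
    rw [nm_hasValue_unique P hv hdv]
    exact hd
  · intro hc
    exact ⟨c, hc, hv⟩

end Chart

/-! ### A generic component -/

section Comp

variable {N : ℕ} [NeZero N] (A : ValuationSubring Qb) {Fk : Type} [Field Fk]
  [Algebra (kRes A) Fk]

/-- the place `Q` of `Fk` lies over the centre `S` (generic component) -/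
def GenSpec {A : ValuationSubring Qb} [Algebra (kRes A) Fk] (V : Subring (FLb N))
    (red : V →+* Fk) (S : Set (FLb N)) (Q : Place (kRes A) Fk) : Prop :=
  ∀ f ∈ S, ∀ h : f ∈ V, red ⟨f, h⟩ ∈ Q.toValuationSubring.nonunits

/-- **The soft facts of a component.** -/
structure CompSoft (V : Subring (FLb N)) (red : V →+* Fk) : Prop where
  const_mem : ∀ c : Qb, c ∈ A → algebraMap Qb (FLb N) c ∈ V
  red_const : ∀ (c : A) (hc : algebraMap Qb (FLb N) (c : Qb) ∈ V),
    red ⟨_, hc⟩ = algebraMap (kRes A) Fk (IsLocalRing.residue A c)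
  norm : ∀ φ : FLb N, φ ≠ 0 → ∃ (c : Qb) (u : V), c ≠ 0 ∧ red u ≠ 0 ∧
    φ = algebraMap Qb (FLb N) c * (u : FLb N)
  inv : ∀ u : V, red u ≠ 0 → (u : FLb N)⁻¹ ∈ V
  j_mem : nmJ N ∈ V
  jinv_mem : (nmJ N)⁻¹ ∈ V
  deg : ∀ P : Place Qb (FLb N), P.deg = 1

variable {A} {V : Subring (FLb N)} {red : V →+* Fk}

/-- the valuation subring of a component -/
def CompSoft.val (H : CompSoft A V red) : ValuationSubring (FLb N) :=
  { V with
    mem_or_inv_mem' := by
      intro x
      by_cases hx : x = 0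
      · left; rw [hx]; exact V.zero_mem
      · obtain ⟨c, u, hc, hu, hxu⟩ := H.norm x hx
        by_cases hcA : c ∈ A
        · left
          rw [hxu]
          exact V.mul_mem (H.const_mem c hcA) u.2
        · right
          have hci : c⁻¹ ∈ A := (A.mem_or_inv_mem c).resolve_left hcA
          rw [hxu, mul_inv, ← map_inv₀]
          exact V.mul_mem (H.const_mem _ hci) (H.inv u hu) }

theorem CompSoft.mem_val (H : CompSoft A V red) {f : FLb N} : f ∈ H.val ↔ f ∈ V := Iff.rfl

/-- the charts `B̄(j)`, `B̄(j⁻¹)` are contained in `V` -/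
theorem CompSoft.chart_le (H : CompSoft A V red) (P : Place Qb (FLb N)) {f : FLb N}
    (hf : f ∈ nmChart N A (nmY A P)) : f ∈ V := by
  classical
  have hy : nmY A P ∈ H.val := by
    unfold nmY
    split_ifs
    · exact H.j_mem
    · exact H.jinv_mem
  exact nmChart_le A H.val (fun c hc => H.const_mem c hc) hy hf

theorem CompSoft.red_const' (H : CompSoft A V red) {c : Qb} (hc : c ∈ A) :
    red ⟨algebraMap Qb (FLb N) c, H.const_mem c hc⟩ =
      algebraMap (kRes A) Fk (IsLocalRing.residue A ⟨c, hc⟩) :=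
  H.red_const ⟨c, hc⟩ _

theorem CompSoft.red_const_nonunit (H : CompSoft A V red) {c : Qb} (hc : c ∈ A.nonunits) :
    red ⟨algebraMap Qb (FLb N) c, H.const_mem c (ValuationSubring.nonunits_subset hc)⟩ = 0 := by
  rw [H.red_const' (ValuationSubring.nonunits_subset hc)]
  have : IsLocalRing.residue A ⟨c, ValuationSubring.nonunits_subset hc⟩ = 0 := by
    rw [IsLocalRing.residue_eq_zero_iff]
    exact (ValuationSubring.coe_mem_nonunits_iff).1 hc
  rw [this, map_zero]

theorem CompSoft.residue_ne_zero (H : CompSoft A V red) {c : Qb} (hc : c ∈ A)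
    (hcu : c ∉ A.nonunits) : IsLocalRing.residue A ⟨c, hc⟩ ≠ 0 := by
  intro h0
  rw [IsLocalRing.residue_eq_zero_iff] at h0
  exact hcu ((ValuationSubring.coe_mem_nonunits_iff (a := (⟨c, hc⟩ : A))).2 h0)

/-- `red f ∈ O_Q` for `f ∈ B̄(y_P)`, `Q` over the centre of `P` -/
theorem CompSoft.red_mem (H : CompSoft A V red) (P : Place Qb (FLb N))
    {Q : Place (kRes A) Fk} (hQ : GenSpec V red (nmCentre A P) Q) {f : FLb N}
    (hf : f ∈ nmChart N A (nmY A P)) (h : f ∈ V) :
    red ⟨f, h⟩ ∈ Q.toValuationSubring := by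
  obtain ⟨c, hcA, -, hcen⟩ := nmChart_decomp P (H.deg P) hf
  have h1 := hQ _ hcen (V.sub_mem h (H.const_mem c hcA))
  have e : (⟨f, h⟩ : V) = ⟨f - algebraMap Qb (FLb N) c, V.sub_mem h (H.const_mem c hcA)⟩ +
      ⟨algebraMap Qb (FLb N) c, H.const_mem c hcA⟩ := by
    apply Subtype.ext
    show f = f - algebraMap Qb (FLb N) c + algebraMap Qb (FLb N) c
    ring
  rw [e, map_add, H.red_const' hcA]
  exact Q.toValuationSubring.add_mem _ _ (ValuationSubring.nonunits_subset h1)
    (Q.algebraMap_mem' _)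

/-- `red f ∈ 𝔪_Q ↔ f(P) ∈ 𝔪_A` for `f ∈ B̄(y_P)`, `Q` over the centre of `P` -/
theorem CompSoft.red_mem_nonunits_iff (H : CompSoft A V red) (P : Place Qb (FLb N))
    {Q : Place (kRes A) Fk} (hQ : GenSpec V red (nmCentre A P) Q) {f : FLb N}
    (hf : f ∈ nmChart N A (nmY A P)) (h : f ∈ V) :
    red ⟨f, h⟩ ∈ Q.toValuationSubring.nonunits ↔ f ∈ nmMax A P := by
  obtain ⟨c, hcA, hcv, hcen⟩ := nmChart_decomp P (H.deg P) hf
  have h1 := hQ _ hcen (V.sub_mem h (H.const_mem c hcA))
  have e : (⟨f, h⟩ : V) = ⟨f - algebraMap Qb (FLb N) c, V.sub_mem h (H.const_mem c hcA)⟩ +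
      ⟨algebraMap Qb (FLb N) c, H.const_mem c hcA⟩ := by
    apply Subtype.ext
    show f = f - algebraMap Qb (FLb N) c + algebraMap Qb (FLb N) c
    ring
  rw [mem_nmMax_iff_of_value P hcv]
  constructor
  · intro h2
    by_contra hcu
    -- `red c = red f - red (f - c) ∈ 𝔪_Q`, a nonzero constant: contradiction
    have h3 : algebraMap (kRes A) Fk (IsLocalRing.residue A ⟨c, hcA⟩) ∈
        Q.toValuationSubring.nonunits := by
      have e2 : algebraMap (kRes A) Fk (IsLocalRing.residue A ⟨c, hcA⟩) =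
          red ⟨f, h⟩ - red ⟨f - algebraMap Qb (FLb N) c, V.sub_mem h (H.const_mem c hcA)⟩ := by
        rw [e, map_add, H.red_const' hcA]
        ring
      rw [e2, ValuationSubring.mem_nonunits_iff]
      rw [ValuationSubring.mem_nonunits_iff] at h1 h2
      exact Valuation.map_sub_lt _ h2 h1
    exact H.residue_ne_zero hcA hcu (nb_const_eq_zero_of_mem_nonunits Q h3)
  · intro hcu
    rw [e, map_add]
    have h4 : red ⟨algebraMap Qb (FLb N) c, H.const_mem c hcA⟩ = 0 := H.red_const_nonunit hcu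
    rw [h4, add_zero]
    exact h1

/-- `𝔮 ∩ B̄ ⊆ 𝔪_P` if some place of `Fk` lies over the centre of `P` -/
theorem CompSoft.ideal_of_spec (H : CompSoft A V red) (P : Place Qb (FLb N))
    {Q : Place (kRes A) Fk} (hQ : GenSpec V red (nmCentre A P) Q) {f : FLb N}
    (hf : f ∈ nmChart N A (nmY A P)) (h : f ∈ V) (h0 : red ⟨f, h⟩ = 0) : f ∈ nmMax A P := by
  rw [← H.red_mem_nonunits_iff P hQ hf h, h0]
  exact (ValuationSubring.mem_nonunits_iff _).2 (by simp)

/-- two places with a common place of `Fk` over their centres are in the same chart -/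
theorem CompSoft.chart_eq_of_spec (H : CompSoft A V red) (P P' : Place Qb (FLb N))
    {Q : Place (kRes A) Fk} (hQ : GenSpec V red (nmCentre A P) Q)
    (hQ' : GenSpec V red (nmCentre A P') Q) : nmY A P = nmY A P' := by
  classical
  -- it suffices to exclude `j ∈ nmInt A P`, `j ∉ nmInt A P'`
  have key : ∀ P₁ P₂ : Place Qb (FLb N), GenSpec V red (nmCentre A P₁) Q →
      GenSpec V red (nmCentre A P₂) Q → nmJ N ∈ nmInt A P₁ → ¬ nmJ N ∈ nmInt A P₂ → False := by
    intro P₁ P₂ h₁ h₂ hj₁ hj₂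
    have hy₁ : nmY A P₁ = nmJ N := by unfold nmY; rw [if_pos hj₁]
    have hy₂ : nmY A P₂ = (nmJ N)⁻¹ := by unfold nmY; rw [if_neg hj₂]
    -- `red j ∈ O_Q`
    have a1 : red ⟨nmJ N, H.j_mem⟩ ∈ Q.toValuationSubring :=
      H.red_mem P₁ h₁ (by rw [hy₁]; exact self_mem_nmChart A _) H.j_mem
    -- `j⁻¹ ∈ 𝔐_{P₂}`
    have hnon : (nmJ N)⁻¹ ∈ (nmComp A P₂ (H.deg P₂)).nonunits := by
      rw [ValuationSubring.mem_nonunits_iff_or]
      right
      rw [inv_inv]
      exact hj₂
    rw [mem_nonunits_nmComp_iff] at hnon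
    have a2 : red ⟨(nmJ N)⁻¹, H.jinv_mem⟩ ∈ Q.toValuationSubring.nonunits :=
      (H.red_mem_nonunits_iff P₂ h₂ (by rw [hy₂]; exact self_mem_nmChart A _) H.jinv_mem).2 hnon
    have hj0 : nmJ N ≠ 0 := by
      intro h0
      apply hj₂
      rw [h0]
      exact (nmComp A P₂ (H.deg P₂)).zero_mem
    have e : red ⟨nmJ N, H.j_mem⟩ * red ⟨(nmJ N)⁻¹, H.jinv_mem⟩ = 1 := by
      rw [← map_mul, ← map_one red]
      congr 1
      apply Subtype.ext
      show nmJ N * (nmJ N)⁻¹ = 1
      exact mul_inv_cancel₀ hj0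
    rw [ValuationSubring.mem_nonunits_iff] at a2
    have a1' : Q.toValuationSubring.valuation (red ⟨nmJ N, H.j_mem⟩) ≤ 1 :=
      (ValuationSubring.valuation_le_one_iff _ _).2 a1
    have : Q.toValuationSubring.valuation (1 : Fk) < 1 := by
      rw [← e, map_mul]
      calc Q.toValuationSubring.valuation (red ⟨nmJ N, H.j_mem⟩) *
            Q.toValuationSubring.valuation (red ⟨(nmJ N)⁻¹, H.jinv_mem⟩)
          ≤ 1 * Q.toValuationSubring.valuation (red ⟨(nmJ N)⁻¹, H.jinv_mem⟩) := by gcongr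
        _ = Q.toValuationSubring.valuation (red ⟨(nmJ N)⁻¹, H.jinv_mem⟩) := one_mul _
        _ < 1 := a2
    rw [map_one] at this
    exact lt_irrefl _ this
  by_cases h1 : nmJ N ∈ nmInt A P <;> by_cases h2 : nmJ N ∈ nmInt A P'
  · unfold nmY; rw [if_pos h1, if_pos h2]
  · exact (key P P' hQ hQ' h1 h2).elim
  · exact (key P' P hQ' hQ h2 h1).elim
  · unfold nmY; rw [if_neg h1, if_neg h2]

/-- **two places of `F` with a common place of `Fk` over their centres have the same centre** -/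
theorem CompSoft.centre_eq_of_spec (H : CompSoft A V red) (P P' : Place Qb (FLb N))
    {Q : Place (kRes A) Fk} (hQ : GenSpec V red (nmCentre A P) Q)
    (hQ' : GenSpec V red (nmCentre A P') Q) : nmCentre A P = nmCentre A P' := by
  have hy := H.chart_eq_of_spec P P' hQ hQ'
  ext f
  constructor
  · rintro ⟨hf, hm⟩
    have hf' : f ∈ nmChart N A (nmY A P') := hy ▸ hf
    refine ⟨hf', ?_⟩
    rw [← H.red_mem_nonunits_iff P' hQ' hf' (H.chart_le P hf)]
    exact (H.red_mem_nonunits_iff P hQ hf (H.chart_le P hf)).2 hm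
  · rintro ⟨hf, hm⟩
    have hf' : f ∈ nmChart N A (nmY A P) := hy ▸ hf
    refine ⟨hf', ?_⟩
    rw [← H.red_mem_nonunits_iff P hQ hf' (H.chart_le P' hf)]
    exact (H.red_mem_nonunits_iff P' hQ' hf (H.chart_le P' hf)).2 hm

/-- `z ∈ red (B̄_𝔪)` (generic component) -/
def GenLocal (A : ValuationSubring Qb) (V : Subring (FLb N)) (red : V →+* Fk)
    (P : Place Qb (FLb N)) (z : Fk) : Prop :=
  ∃ (f s : FLb N) (hf : f ∈ V) (hs : s ∈ V),
    f ∈ nmChart N A (nmY A P) ∧ s ∈ nmChart N A (nmY A P) ∧ s ∉ nmMax A P ∧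
    red ⟨f, hf⟩ = z * red ⟨s, hs⟩

/-- `red (B̄_𝔪) ⊆ O_Q` for every place `Q` over the centre -/
theorem CompSoft.local_mem (H : CompSoft A V red) (P : Place Qb (FLb N))
    {Q : Place (kRes A) Fk} (hQ : GenSpec V red (nmCentre A P) Q) {z : Fk}
    (hz : GenLocal A V red P z) : z ∈ Q.toValuationSubring := by
  obtain ⟨f, s, hf, hs, hfB, hsB, hsm, e⟩ := hz
  have h1 := H.red_mem P hQ hfB hf
  have h2 := H.red_mem P hQ hsB hs
  have h3 : red ⟨s, hs⟩ ∉ Q.toValuationSubring.nonunits := fun h =>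
    hsm ((H.red_mem_nonunits_iff P hQ hsB hs).1 h)
  -- `red s` is a unit of `O_Q`
  have h4 : Q.toValuationSubring.valuation (red ⟨s, hs⟩) = 1 := by
    have a := (ValuationSubring.valuation_le_one_iff _ _).2 h2
    rw [ValuationSubring.mem_nonunits_iff, not_lt] at h3
    exact le_antisymm a h3
  rw [← ValuationSubring.valuation_le_one_iff]
  have h5 : Q.toValuationSubring.valuation (red ⟨f, hf⟩) ≤ 1 :=
    (ValuationSubring.valuation_le_one_iff _ _).2 h1
  rw [e, map_mul, h4, mul_one] at h5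
  exact h5

/-- **uniqueness of the place over a centre** : a place `Q₀` over the centre with
`O_{Q₀} ⊆ red (B̄_𝔪)` is the only place over the centre. -/
theorem CompSoft.spec_unique (H : CompSoft A V red) (P : Place Qb (FLb N))
    {Q₀ Q : Place (kRes A) Fk}
    (h₀ : ∀ z ∈ Q₀.toValuationSubring, GenLocal A V red P z)
    (hQ : GenSpec V red (nmCentre A P) Q) : Q₀ = Q := by
  apply Fermat.Agent.H23.place_ext_of_ord
  intro z hz
  exact Fermat.Agent.H23.ord_nonneg_of_mem Q
    (H.local_mem P hQ (h₀ z (Fermat.Agent.H23.mem_of_ord_nonneg Q₀ hz)))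

end Comp

end Fermat.Agent.H84.ORD
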