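import Fermat.Agent.H84.ORD.NmLiftAsm
import Fermat.Agent.H84.ORD.NodalSpecFinal
import Fermat.Agent.H20.ORD.NmSoft
import Fermat.Agent.H93.ORD.NmTotIdeal
import Fermat.Agent.H2.ORD.NmSurj
import Fermat.Agent.H40.ORD.NmLattice
import Fermat.Agent.H56.ORD.NmSmoothFinal
import Fermat.Agent.H76.ORD.NmNode
import Fermat.Agent.H13.ORD.NmGal
import Fermat.Agent.H21.Ord.NmNodes
import Fermat.Agent.H95.ORD.LocalW
import Fermat.Agent.H99.ORD.LiftAsm
import Fermat.Agent.H19.ORD.NmAnchorFinal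
import Fermat.Agent.H18.ORD.NodalDivThm
import Fermat.Agent.H85.ORD.UnrNorm

/-!
# P-ORD, block B1 : `NmBlocks M p` from the OPEN inputs (helper84, master assembly)

Everything that is landed unconditionally is plugged in here :

* soft fields `Fermat.Agent.H20.ORD.nmSoft`, [TOTI] `Fermat.Agent.H93.ORD.nmTotIdeal`,
  [SURJ] `Fermat.Agent.H2.ORD.nmSurjOo/Zero`, [PAIR] `Fermat.Agent.H40.ORD.nmLattice`,
  SPEC `nmSpec_of_soft`, GAL `Fermat.Agent.H13.ORD.nmGalHyp_uncond`,
  [DVR] at `0` from [DVR] at `∞` `Fermat.Agent.H95.ORD.nmDvrZero_of_oo'`,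
  the node count `Fermat.Agent.H87.ORD.nodalNC`, `Fermat.Agent.H23.ORD.nm_genus_ge`,
  the existence of the nodes `Fermat.Agent.H21.Ord.nmNodes_of_genusEq`,
  (PAIR-SEMI) `Fermat.Agent.H18.ORD.pairSemiAt_of_norm` with the normal forms
  `Fermat.Agent.H85.ORD.nm_unrNorm_oo/zero`, [LIFT-ASM] `Fermat.Agent.H99.ORD.nodalLiftAsm`,
  [CUSPS] `Fermat.Agent.H19.ORD.nmAnchor`;
* the conditional rows (M2) `Fermat.Agent.H56.ORD.nmSmooth`, (NODE) `Fermat.Agent.H76.ORD.nmNode`.

What remains are the FIVE hypotheses of `nmBlocks_of_inputs` :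
[HART], [PG], [XY], [DVR] at `∞`, [ANCHOR].
-/

set_option autoImplicit false
set_option linter.unusedSectionVars false
set_option linter.style.haveILetI false

noncomputable section

open AlgebraicCurve ModularCurve

namespace Fermat.Agent.H84.ORD

open Fermat.Agent.H72.FF Fermat.Agent.H18.ORD Fermat.Agent.H92.ORD

variable (M p : ℕ) [NeZero M] [NeZero p]

/-- **[RV] for the concrete model** from the four open local statements. -/
theorem nmRvHyp_of_inputs (hHart : NmHartogsStatement M p) (hPG : NmPlaceGenStatement M p)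
    (hXY : NmCrossStatement M p) (hDo : NmDvrOoStatement M p)
    (hDz : NmDvrZeroStatement M p) : NmRvHypStatement M p :=
  nmRvHyp_of_fields (Fermat.Agent.H20.ORD.nmSoft M p)
    (nmSpec_of_soft (Fermat.Agent.H20.ORD.nmSoft M p))
    (Fermat.Agent.H56.ORD.nmSmooth M p hHart hPG (Fermat.Agent.H93.ORD.nmTotIdeal M p) hDo hDz
      (Fermat.Agent.H2.ORD.nmSurjOo M p) (Fermat.Agent.H2.ORD.nmSurjZero M p)
      (Fermat.Agent.H20.ORD.nmSoft M p))
    (Fermat.Agent.H76.ORD.nmNode M p hHart hXY (Fermat.Agent.H93.ORD.nmTotIdeal M p) hDo hDz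
      (Fermat.Agent.H20.ORD.nmSoft M p))
    (Fermat.Agent.H40.ORD.nmLattice M p)

/-- **[TOT] for the concrete model** from [DVR]. -/
theorem nmTot_of_inputs (hDo : NmDvrOoStatement M p) (hDz : NmDvrZeroStatement M p) :
    NmTotStatement M p :=
  nmTot (Fermat.Agent.H93.ORD.nmTotIdeal M p) hDo hDz

/-- **[CUSPS]** (helper19, unconditional) in the shape of `NmCuspPairStatement`. -/
theorem nmCuspPair : NmCuspPairStatement M p := by
  intro A h htot
  obtain ⟨Poo, P0, Qoo, Q0, h1, h2, h3, h4⟩ :=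
    Fermat.Agent.H19.ORD.nmAnchor h.prime h.liesOver htot
  exact ⟨Poo, P0, Qoo, Q0, h1, h2, fun σ _ => h3 σ, fun σ _ => h4 σ⟩

/-- **(PAIR-SEMI)** for the concrete model (helper18's `pairSemiAt_of_norm`, helper85's normal
forms, helper23's pair lattice). -/
theorem nmPairSemi (hR : NmRvHypStatement M p) : NmPairSemiStatement M p :=
  fun A h htot _ _ hPoo hP0 =>
    pairSemiAt_of_norm (hR A h htot) h.prime h.liesOver
      (Fermat.Agent.H85.ORD.nm_unrNorm_oo h htot)
      (Fermat.Agent.H85.ORD.nm_unrNorm_zero h htot)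
      (fun V hV => Fermat.Agent.H23.ORD.nm_nodalPairG3 M p (Fermat.Agent.H20.ORD.nmSoft M p)
        A h htot V hV)
      (nmPkgL M p) hPoo hP0

/-- **THE MASTER ASSEMBLY OF BLOCK B1** : the bundle `NmBlocks M p` consumed by the top of S33
(`Fermat.Agent.H72.ORD.s33_of_add_nm`, `Fermat.Agent.H14.ORD.s33_of_nmBlocks`) from the five
open inputs [HART], [PG], [XY], [DVR] at `∞`, [ANCHOR]. -/
theorem nmBlocks_of_inputs (hHart : NmHartogsStatement M p) (hPG : NmPlaceGenStatement M p)
    (hXY : NmCrossStatement M p) (hDo : NmDvrOoStatement M p)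
    (hAn : Fermat.Agent.H37.ORD.NmAnchorStatement M p) : NmBlocks M p := by
  have hS := Fermat.Agent.H20.ORD.nmSoft M p
  have hDz : NmDvrZeroStatement M p := Fermat.Agent.H95.ORD.nmDvrZero_of_oo' M p hS hDo
  have hR := nmRvHyp_of_inputs M p hHart hPG hXY hDo hDz
  have hT := nmTot_of_inputs M p hDo hDz
  have hGal := Fermat.Agent.H13.ORD.nmGalHyp_uncond M p
  have hCu := nmCuspPair M p
  have hGen := nmGenusEq_of_parts hS hT hR hAn hCu
  exact
    { tot := hT
      rv := hR
      gal := hGal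
      lift := nmLift_of_parts Fermat.Agent.H99.ORD.nodalLiftAsm hR hGal hAn
        (nmPairSemi M p hR) hCu
      nodes := Fermat.Agent.H21.Ord.nmNodes_of_genusEq hGen
      genus := hGen }

end Fermat.Agent.H84.ORD
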