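import Fermat.Agent.H84.ORD.NmBlocksAsm
import Fermat.Agent.H31.ORD.NmHartogs
import Fermat.Agent.H67.ORD.NmPG
import Fermat.Agent.H3.ORD.NmCrossRel
import Fermat.Agent.H37.ORD.AnchorCrt

/-!
# P-ORD, block B1 : `NmBlocks M p` from the THREE open leaves (helper84, master assembly 2)

On top of `nmBlocks_of_inputs` the following closed rows are plugged in :

* [HART] `Fermat.Agent.H31.ORD.nmHartogs`, [PG] `Fermat.Agent.H67.ORD.nmPlaceGen`;
* [XY] parts (a), (b) `Fermat.Agent.H3.ORD.nmCross_of_ord`;
* [ANCHOR] from the chart lift `Fermat.Agent.H37.ORD.nmAnchor_of_chartLift` ([CRT] on both charts is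
  `Fermat.Agent.H17.ORD.nmCrt`).

What remains are the THREE hypotheses of `nmBlocks_of_leaves` :
* `Fermat.Agent.H3.ORD.NmCrossOrdStatement M p`   : [XY] part (c), the branches at a node;
* `NmDvrOoStatement M p`                          : [DVR] on the component `∞`;
* `Fermat.Agent.H37.ORD.NmChartLiftStatement M p` : the chart lift with a uniform exponent.
-/

set_option autoImplicit false
set_option linter.unusedSectionVars false
set_option linter.style.haveILetI false

noncomputable section

open AlgebraicCurve ModularCurve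

namespace Fermat.Agent.H84.ORD

open Fermat.Agent.H72.FF Fermat.Agent.H18.ORD Fermat.Agent.H92.ORD

variable (M p : ℕ) [NeZero M] [NeZero p]

/-- **[RV] for the concrete model** from [XY] part (c) and [DVR] at `∞`. -/
theorem nmRvHyp_of_leaves (hOrd : Fermat.Agent.H3.ORD.NmCrossOrdStatement M p)
    (hDo : NmDvrOoStatement M p) : NmRvHypStatement M p :=
  nmRvHyp_of_inputs M p (Fermat.Agent.H31.ORD.nmHartogs M p)
    (Fermat.Agent.H67.ORD.nmPlaceGen M p) (Fermat.Agent.H3.ORD.nmCross_of_ord M p hOrd) hDo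
    (Fermat.Agent.H95.ORD.nmDvrZero_of_oo' M p (Fermat.Agent.H20.ORD.nmSoft M p) hDo)

/-- **THE MASTER ASSEMBLY OF BLOCK B1, second form** : `NmBlocks M p` from the three open
leaves [XY](c), [DVR] at `∞` and the chart lift. -/
theorem nmBlocks_of_leaves (hOrd : Fermat.Agent.H3.ORD.NmCrossOrdStatement M p)
    (hDo : NmDvrOoStatement M p)
    (hL : Fermat.Agent.H37.ORD.NmChartLiftStatement M p) : NmBlocks M p := by
  have hXY := Fermat.Agent.H3.ORD.nmCross_of_ord M p hOrd
  have hDz := Fermat.Agent.H95.ORD.nmDvrZero_of_oo' M p (Fermat.Agent.H20.ORD.nmSoft M p) hDo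
  have hR := nmRvHyp_of_leaves M p hOrd hDo
  exact nmBlocks_of_inputs M p (Fermat.Agent.H31.ORD.nmHartogs M p)
    (Fermat.Agent.H67.ORD.nmPlaceGen M p) hXY hDo
    (Fermat.Agent.H37.ORD.nmAnchor_of_chartLift hR hDo hDz hXY hL)

end Fermat.Agent.H84.ORD
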