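import Fermat.Agent.H84.ORD.NmBlocksAsm2
import Fermat.Agent.H59.ORD.NmCrossOrd
import Fermat.Agent.H71.ORD.NmValOoFinal
import Fermat.Agent.H94.ORD.NmChartLiftClosed

/-!
# P-ORD, block B1 : THE CLOSED TERM `nmBlocks` (helper84, final assembly)

`nmBlocks M p : Fermat.Agent.H92.ORD.NmBlocks M p`, unconditional : the nodal data `nmG` of
`X₀(M p)` satisfies the whole nodal interface.  This is the hypothesis `hB` of
`Fermat.Agent.H72.ORD.s33_of_add_nm` / `Fermat.Agent.H14.ORD.s33_of_nmBlocks` (`nmBlocks_all`).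

The three last leaves :
* [XY] part (c) : `Fermat.Agent.H59.ORD.nmCrossOrd` (helper59);
* [DVR] on the component `∞` : `Fermat.Agent.H71.ORD.nmDvrOo` (helper71, with helper41, helper82);
* the chart lift : `Fermat.Agent.H94.ORD.nmChartLift` (helper94, with helper92, helper93, helper32).
-/

set_option autoImplicit false
set_option linter.unusedSectionVars false

noncomputable section

open AlgebraicCurve ModularCurve

namespace Fermat.Agent.H84.ORD

open Fermat.Agent.H72.FF Fermat.Agent.H18.ORD Fermat.Agent.H92.ORD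

/-- **BLOCK B1, CLOSED** : the bundle of the nodal block statements for `X₀(M p)`. -/
theorem nmBlocks (M p : ℕ) [NeZero M] [NeZero p] : NmBlocks M p := by
  have hS := Fermat.Agent.H20.ORD.nmSoft M p
  have hDo := Fermat.Agent.H71.ORD.nmDvrOo M p
  have hDz := Fermat.Agent.H95.ORD.nmDvrZero_of_oo' M p hS hDo
  exact nmBlocks_of_leaves M p (Fermat.Agent.H59.ORD.nmCrossOrd hS hDo hDz) hDo
    (Fermat.Agent.H94.ORD.nmChartLift M p)

/-- **BLOCK B1, CLOSED**, in the exact shape of the hypothesis `hB` of the top of S33. -/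
theorem nmBlocks_all :
    ∀ (M p : ℕ) [NeZero M] [NeZero p], p.Prime → p ≠ 2 → Nat.Coprime M p → 4 ∣ M →
      NmBlocks M p :=
  fun M p _ _ _ _ _ _ => nmBlocks M p

end Fermat.Agent.H84.ORD
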