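import Fermat.Agent.H84.ORD.PairSemiRel
import Fermat.Agent.H84.ORD.NodalModelAPI
import Fermat.Agent.H37.ORD.AnchorNmDefs
import Fermat.Agent.H53.ORD.UnrDiscThm
import Fermat.Agent.H87.ORD.NodalNC
import Fermat.Agent.H87.ORD.NodalFinite
import Fermat.Agent.H19.ORD.NodalPt
import Fermat.Agent.H92.ORD.NodalAsm
import Fermat.Agent.H23.ORD.NodeCountEq
import Fermat.Agent.H18.ORD.NodalDivDefs

/-!
# P-ORD, block B1 : the blocks LIFT and GENUS of `nmG` from their concrete inputs (helper84)

The fields `lift` and `genus` of `Fermat.Agent.H92.ORD.NmBlocks M p` are reduced to THREE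
concrete statements about the model `nmG` and ONE abstract theorem of helper18's chain :

* `Fermat.Agent.H37.ORD.NmAnchorStatement M p` : **[ANCHOR]** `AnchorLift (nmG htot)`
  (findings #569, #581);
* `NmPairSemiStatement M p` : **(PAIR-SEMI)** at every pair of inertia-fixed places; it follows
  from `NmCoeffStatement M p` (relative coefficient functionals, `nmPairSemi_of_coeff`) or from
  helper18's `PairSemiDivStatement` / helper22's `pairSemiAt_of_unr` and [DIV];
* `NmCuspPairStatement M p` : **[CUSPS]** one pair of inertia-fixed places specialising to smooth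
  points of `C_∞` and of `C_0`;
* `NodalLiftAsmStatement` (helper18's Prop, helper19's theorem) is taken as a hypothesis; the
  reverse inequality of the node count is helper23's `nm_genus_ge`.

Results : `nmFinite`, `nmNC`, `nmPairSemi_of_coeff`, `nmPairSemi_of_div`, `nmLift_of_parts`,
`nmGenusEq_of_parts`.
-/

set_option autoImplicit false
set_option linter.unusedSectionVars false
set_option linter.style.haveILetI false
set_option maxHeartbeats 1600000
set_option synthInstance.maxHeartbeats 400000

noncomputable section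

open AlgebraicCurve ModularCurve

namespace Fermat.Agent.H84.ORD

open Fermat.Agent.H72.FF Fermat.Agent.H85.ORD Fermat.Agent.H94.ORD Fermat.Agent.H27.ESD
open Fermat.Agent.H18.ORD Fermat.Agent.H19.ORD Fermat.Agent.H92.ORD

/-- **(PAIR-SEMI)** for the concrete model, at every pair of inertia-fixed places. -/
def NmPairSemiStatement (M p : ℕ) [NeZero M] [NeZero p] : Prop :=
  ∀ (A : ValuationSubring Qb) (h : NmSetup M p A) (htot : NmTot M p h.cop A)
    (Poo P0 : Place Qb (FLb (M * p))),
    IsUnrPlace A (M * p) Poo → IsUnrPlace A (M * p) P0 → PairSemiAt (nmG htot) Poo P0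

/-- **[CF]** relative coefficient functionals for the concrete model. -/
def NmCoeffStatement (M p : ℕ) [NeZero M] [NeZero p] : Prop :=
  ∀ (A : ValuationSubring Qb) (h : NmSetup M p A) (htot : NmTot M p h.cop A)
    (Poo P0 : Place Qb (FLb (M * p))),
    IsUnrPlace A (M * p) Poo → IsUnrPlace A (M * p) P0 → ∀ n : ℕ,
      ∃ (J : Type) (lam : J → FLb (M * p) →ₗ[Qb] Qb),
        NodalCoeffOn (nmG htot) (riemannRochSpace (twoPt Poo P0 n)) J lam

/-- **[DIV]** for the concrete model : inertia-fixed functions of `V_∞ ∩ V_0` with vanishing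
reductions are divisible by `p` (findings #578). -/
def NmUnrDivStatement (M p : ℕ) [NeZero M] [NeZero p] : Prop :=
  ∀ (A : ValuationSubring Qb) (h : NmSetup M p A) (htot : NmTot M p h.cop A),
    UnrDiv p (nmG htot)

/-- **[CUSPS]** one pair of inertia-fixed places over smooth points of the two components. -/
def NmCuspPairStatement (M p : ℕ) [NeZero M] [NeZero p] : Prop :=
  ∀ (A : ValuationSubring Qb) (h : NmSetup M p A) (htot : NmTot M p h.cop A),
    ∃ (Poo P0 : Place Qb (FLb (M * p))) (Qoo Q0 : Place (kRes A) (NmF (M * p) A)),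
      (nmG htot).r Poo = NPt.oo Qoo ∧ (nmG htot).r P0 = NPt.zero Q0 ∧
      IsUnrPlace A (M * p) Poo ∧ IsUnrPlace A (M * p) P0

section

variable {M p : ℕ} [NeZero M] [NeZero p]

theorem NmSetup.not_dvd {A : ValuationSubring Qb} (h : NmSetup M p A) : ¬ p ∣ M := fun hd =>
  h.prime.one_lt.ne' (Nat.Coprime.eq_one_of_dvd h.cop.symm hd)

/-- the Riemann package of the generic fibre -/
theorem nmPkgL (M p : ℕ) [NeZero M] [NeZero p] :
    RiemannPackage Qb (FLb (M * p)) (genusFF Qb (FLb (M * p))) :=
  Fermat.Agent.H58.riemannPackage_of_rrHyp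
    (Fermat.Agent.H58.rrHyp_modularFunctionFieldBar (M * p))

/-- the Riemann package of the components -/
theorem nmPkgK {A : ValuationSubring Qb} (h : NmSetup M p A) :
    RiemannPackage (kRes A) (NmF (M * p) A) (genusFF (kRes A) (NmF (M * p) A)) := by
  obtain ⟨hac, hrr⟩ := b1_rrHyp_nmF M p h.prime h.not_dvd A h.liesOver
  haveI := hac
  haveI : Infinite (kRes A) := IsAlgClosed.instInfinite
  exact Fermat.Agent.H58.riemannPackage_of_rrHyp hrr

/-- **[NODES], finiteness** : the concrete model has finitely many nodes. -/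
theorem nmFinite (hR : NmRvHypStatement M p) (A : ValuationSubring Qb) (h : NmSetup M p A)
    (htot : NmTot M p h.cop A) : Finite (NmNode M p h.cop A) :=
  Fermat.Agent.H87.ORD.nodal_finite_nodes h.prime.ne_zero (nmG htot) (hR A h htot)
    (nmPkgL M p).principal (nmPkgK h).principal (nmPkgK h).principal

/-- **(PAIR-SEMI)** for the concrete model from relative coefficient functionals. -/
theorem nmPairSemi_of_coeff (hR : NmRvHypStatement M p) (hCf : NmCoeffStatement M p) :
    NmPairSemiStatement M p := fun A h htot Poo P0 hPoo hP0 =>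
  pairSemiAt_on (hR A h htot) h.prime h.liesOver
    (Fermat.Agent.H53.unrDisc_of_liesOver p A h.prime h.liesOver) (nmPkgL M p) hPoo hP0
    (hCf A h htot Poo P0 hPoo hP0)

/-- **(PAIR-SEMI)** for the concrete model from [DIV] and helper18's abstract
`PairSemiDivStatement` (the pair lattice statement is helper23's `nm_nodalPairG3`). -/
theorem nmPairSemi_of_div (hPSD : PairSemiDivStatement) (hS : NmSoftStatement M p)
    (hR : NmRvHypStatement M p) (hDiv : NmUnrDivStatement M p) :
    NmPairSemiStatement M p := fun A h htot Poo P0 hPoo hP0 =>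
  hPSD (M * p) p A (NmF (M * p) A) (NmF (M * p) A) (NmNode M p h.cop A) (nmG htot) _
    h.prime h.liesOver (hR A h htot) (hDiv A h htot)
    (fun V hV => Fermat.Agent.H23.ORD.nm_nodalPairG3 M p hS A h htot V hV) (nmPkgL M p)
    Poo P0 hPoo hP0

/-- **[NC]** for the concrete model. -/
theorem nmNC (hR : NmRvHypStatement M p) (hAn : Fermat.Agent.H37.ORD.NmAnchorStatement M p)
    (A : ValuationSubring Qb) (h : NmSetup M p A) (htot : NmTot M p h.cop A) :
    genusFF Qb (FLb (M * p)) + 1 ≤
      genusFF (kRes A) (NmF (M * p) A) + genusFF (kRes A) (NmF (M * p) A) +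
        Nat.card (NmNode M p h.cop A) :=
  Fermat.Agent.H87.ORD.nodalNC (M * p) p A (NmF (M * p) A) (NmF (M * p) A)
    (NmNode M p h.cop A) (nmG htot) _ _ _ h.prime h.liesOver (hR A h htot)
    (nmFinite hR A h htot) (nmPkgL M p) (nmPkgK h) (nmPkgK h) (hAn A h htot)

/-- **[LIFT] for the concrete model** from [ANCHOR], (PAIR-SEMI), [CUSPS] and the abstract
[LIFT-ASM]. -/
theorem nmLift_of_parts (hLA : NodalLiftAsmStatement) (hR : NmRvHypStatement M p)
    (hG : NmGalHypStatement M p) (hAn : Fermat.Agent.H37.ORD.NmAnchorStatement M p)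
    (hPS : NmPairSemiStatement M p) (hCu : NmCuspPairStatement M p) :
    NmLiftStatement M p := by
  intro A h htot
  haveI := nmFinite hR A h htot
  obtain ⟨Poo, P0, Qoo, Q0, hPoo, hP0, hPooI, hP0I⟩ := hCu A h htot
  refine nodalLift_of_base (nmG htot) (hR A h htot) (hG A h htot) (nmPkgL M p).principal
    (nmPkgK h) (nmPkgK h) Poo P0 Qoo Q0 hPoo hP0 hPooI hP0I ?_
  intro Poo' P0' Qoo' Q0' h1 h2 h3 h4
  exact hLA (M * p) p A (NmF (M * p) A) (NmF (M * p) A) (NmNode M p h.cop A) (nmG htot)
    _ _ _ h.prime h.liesOver (hR A h htot) (nmFinite hR A h htot) (nmPkgL M p) (nmPkgK h)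
    (nmPkgK h) (nmNC hR hAn A h htot) Poo' P0' Qoo' Q0' h1 h2 (hPS A h htot Poo' P0' h3 h4)

/-- **[GENUS] for the concrete model** from [ANCHOR] and [CUSPS] (the reverse inequality is
helper23's `nm_genus_ge`, from the lattice property alone). -/
theorem nmGenusEq_of_parts (hS : NmSoftStatement M p) (hT : NmTotStatement M p)
    (hR : NmRvHypStatement M p) (hAn : Fermat.Agent.H37.ORD.NmAnchorStatement M p)
    (hCu : NmCuspPairStatement M p) : NmGenusEqStatement M p := by
  intro A h
  have htot := hT A h
  haveI := nmFinite hR A h htot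
  obtain ⟨Poo, P0, Qoo, Q0, hPoo, hP0, -, -⟩ := hCu A h htot
  refine le_antisymm (nmNC hR hAn A h htot) ?_
  exact Fermat.Agent.H23.ORD.nm_genus_ge M p hS A h htot (hR A h htot) (nmPkgL M p)
    (nmPkgK h) (nmPkgK h) hPoo hP0

end

end Fermat.Agent.H84.ORD
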