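import Fermat.Agent.H84.ORD.NodalSpecB
import Fermat.Agent.H70.SS.RatPlaceModular

/-!
# P-ORD, block B1-SPEC : centres and places for the nodal data `nmG` of `X₀(M p)` (helper84)

Inputs: `NmSoftStatement M p` (row B1-GAUSS) and `NmChartSoftStatement M p`
(`j, j⁻¹ ∈ V_∞ ∩ V_0`).  `NmBase M p A` bundles the two generic components
`CompSoft A V_∞ red_∞`, `CompSoft A V_0 red_0` (`nmBase_of`).

LIBRARY (for `H : NmBase M p A`, `P` a place of `F`, `B̄ = nmChart (M p) A (nmY A P)`):
* (a) `NmBase.chart_le_oo`, `NmBase.chart_le_zero` : `B̄ ⊆ V_∞ ∩ V_0`;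
* (b) `nmChart_value`, `nmChart_decomp` (part B) : `f ∈ B̄` has a value `c ∈ A` at `P`;
* (c) `NmBase.specOo_unique`, `NmBase.specZero_unique` : uniqueness of the place over a centre
  (from [DVR]);
* (d) `NmBase.centre_eq_of_specOo`, `NmBase.centre_eq_of_specZero`;
* (e) `NmBase.redOo_mem`, `NmBase.redOo_mem_nonunits_iff` (and `red0`);
* (f) `NmBase.idealOo_of_specOo`, `NmBase.idealZero_of_specZero`; converse
  `NmBase.onOo_iff_idealOo` (from [DVR]);
* `nmR` : `NmBase.nmR_eq_oo_iff`, `NmBase.nmR_eq_zero_iff`, `nmR_node_iff`,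
  `NmBase.nmR_eq_iff_centre_eq` (the residue discs are the fibres of the centre map).

TARGETS of row B1-SPEC: `nmTot`, `nmSpec`.
-/

set_option autoImplicit false
set_option linter.unusedSectionVars false

noncomputable section

open AlgebraicCurve ModularCurve

namespace Fermat.Agent.H84.ORD

open Fermat.Agent.H72.FF Fermat.Agent.H18.ORD Fermat.Agent.H66 Fermat.Agent.H27.ESD

/-- `j, j⁻¹ ∈ V_∞ ∩ V_0`. -/
def NmChartSoftStatement (M p : ℕ) [NeZero M] [NeZero p] : Prop :=
  ∀ (A : ValuationSubring Qb) (h : NmSetup M p A),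
    nmJ (M * p) ∈ gaussOBar (M * p) A ∧ (nmJ (M * p))⁻¹ ∈ gaussOBar (M * p) A ∧
    nmJ (M * p) ∈ nmV0 M p h.cop A ∧ (nmJ (M * p))⁻¹ ∈ nmV0 M p h.cop A

/-- **The two components of `nmG` with their soft facts.** -/
structure NmBase (M p : ℕ) [NeZero M] [NeZero p] (A : ValuationSubring Qb) : Prop where
  setup : NmSetup M p A
  oo : CompSoft A (gaussOBar (M * p) A) (nmRedOo (M * p) A)
  zero : CompSoft A (nmV0 M p setup.cop A) (nmRed0 M p setup.cop A)

theorem nmBase_of {M p : ℕ} [NeZero M] [NeZero p] (hS : NmSoftStatement M p)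
    (hJ : NmChartSoftStatement M p) {A : ValuationSubring Qb} (h : NmSetup M p A) :
    NmBase M p A := by
  obtain ⟨s1, s2, s3, s4, s5, s6, s7, s8, -, -, -⟩ := hS A h
  obtain ⟨j1, j2, j3, j4⟩ := hJ A h
  exact
    { setup := h
      oo :=
        { const_mem := fun c hc => (s1 c).2 hc
          red_const := s3
          norm := s5
          inv := s7
          j_mem := j1
          jinv_mem := j2
          deg := Fermat.Agent.H70.SS.ss_deg_eq_one_bar (M * p) }
      zero :=
        { const_mem := fun c hc => (s2 c).2 hc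
          red_const := s4
          norm := s6
          inv := s8
          j_mem := j3
          jinv_mem := j4
          deg := Fermat.Agent.H70.SS.ss_deg_eq_one_bar (M * p) } }

section Lib

variable {M p : ℕ} [NeZero M] [NeZero p] {A : ValuationSubring Qb}

theorem nmSpecOo_iff (S : Set (FLb (M * p))) (Q : Place (kRes A) (NmF (M * p) A)) :
    NmSpecOo M p A S Q ↔ GenSpec (gaussOBar (M * p) A) (nmRedOo (M * p) A) S Q := Iff.rfl

theorem nmSpecZero_iff (hcop : Nat.Coprime M p) (S : Set (FLb (M * p)))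
    (Q : Place (kRes A) (NmF (M * p) A)) :
    NmSpecZero M p hcop A S Q ↔ GenSpec (nmV0 M p hcop A) (nmRed0 M p hcop A) S Q := Iff.rfl

theorem nmLocalOo_iff (P : Place Qb (FLb (M * p))) (z : NmF (M * p) A) :
    NmLocalOo M p A P z ↔ GenLocal A (gaussOBar (M * p) A) (nmRedOo (M * p) A) P z := Iff.rfl

theorem nmLocalZero_iff (hcop : Nat.Coprime M p) (P : Place Qb (FLb (M * p)))
    (z : NmF (M * p) A) :
    NmLocalZero M p hcop A P z ↔ GenLocal A (nmV0 M p hcop A) (nmRed0 M p hcop A) P z := Iff.rfl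

variable (P P' : Place Qb (FLb (M * p)))

/-- (a) `B̄ ⊆ V_∞` -/
theorem NmBase.chart_le_oo (H : NmBase M p A) {f : FLb (M * p)} (hf : f ∈ nmChart (M * p) A (nmY A P)) :
    f ∈ gaussOBar (M * p) A := H.oo.chart_le P hf

/-- (a) `B̄ ⊆ V_0` -/
theorem NmBase.chart_le_zero (H : NmBase M p A) {f : FLb (M * p)} (hf : f ∈ nmChart (M * p) A (nmY A P)) :
    f ∈ nmV0 M p H.setup.cop A := H.zero.chart_le P hf

theorem NmBase.deg (H : NmBase M p A) (P : Place Qb (FLb (M * p))) : P.deg = 1 :=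
  Fermat.Agent.H70.SS.ss_deg_eq_one_bar (M * p) P

variable {P P'}

/-- (e) `red_∞ f ∈ O_Q` -/
theorem NmBase.redOo_mem (H : NmBase M p A) {Q : Place (kRes A) (NmF (M * p) A)}
    (hQ : NmSpecOo M p A (nmCentre A P) Q) {f : FLb (M * p)}
    (hf : f ∈ nmChart (M * p) A (nmY A P)) (h : f ∈ gaussOBar (M * p) A) :
    nmRedOo (M * p) A ⟨f, h⟩ ∈ Q.toValuationSubring := H.oo.red_mem P hQ hf h

/-- (e) `red_∞ f ∈ 𝔪_Q ↔ f ∈ nmMax A P` -/
theorem NmBase.redOo_mem_nonunits_iff (H : NmBase M p A) {Q : Place (kRes A) (NmF (M * p) A)}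
    (hQ : NmSpecOo M p A (nmCentre A P) Q) {f : FLb (M * p)}
    (hf : f ∈ nmChart (M * p) A (nmY A P)) (h : f ∈ gaussOBar (M * p) A) :
    nmRedOo (M * p) A ⟨f, h⟩ ∈ Q.toValuationSubring.nonunits ↔ f ∈ nmMax A P :=
  H.oo.red_mem_nonunits_iff P hQ hf h

/-- (e) `red_0 f ∈ O_Q` -/
theorem NmBase.red0_mem (H : NmBase M p A) {Q : Place (kRes A) (NmF (M * p) A)}
    (hQ : NmSpecZero M p H.setup.cop A (nmCentre A P) Q) {f : FLb (M * p)}
    (hf : f ∈ nmChart (M * p) A (nmY A P)) (h : f ∈ nmV0 M p H.setup.cop A) :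
    nmRed0 M p H.setup.cop A ⟨f, h⟩ ∈ Q.toValuationSubring := H.zero.red_mem P hQ hf h

/-- (e) `red_0 f ∈ 𝔪_Q ↔ f ∈ nmMax A P` -/
theorem NmBase.red0_mem_nonunits_iff (H : NmBase M p A) {Q : Place (kRes A) (NmF (M * p) A)}
    (hQ : NmSpecZero M p H.setup.cop A (nmCentre A P) Q) {f : FLb (M * p)}
    (hf : f ∈ nmChart (M * p) A (nmY A P)) (h : f ∈ nmV0 M p H.setup.cop A) :
    nmRed0 M p H.setup.cop A ⟨f, h⟩ ∈ Q.toValuationSubring.nonunits ↔ f ∈ nmMax A P :=
  H.zero.red_mem_nonunits_iff P hQ hf h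

/-- (f) a place of `F_∞` over the centre of `P` : the centre lies on `C_∞` (ideal form) -/
theorem NmBase.idealOo_of_specOo (H : NmBase M p A) {Q : Place (kRes A) (NmF (M * p) A)}
    (hQ : NmSpecOo M p A (nmCentre A P) Q) : NmIdealOo M p A P :=
  fun _ hf h h0 => H.oo.ideal_of_spec P hQ hf h h0

/-- (f) component `0` -/
theorem NmBase.idealZero_of_specZero (H : NmBase M p A) {Q : Place (kRes A) (NmF (M * p) A)}
    (hQ : NmSpecZero M p H.setup.cop A (nmCentre A P) Q) : NmIdealZero M p H.setup.cop A P :=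
  fun _ hf h h0 => H.zero.ideal_of_spec P hQ hf h h0

/-- (d) a common place of `F_∞` over the centres : same centre -/
theorem NmBase.centre_eq_of_specOo (H : NmBase M p A) {Q : Place (kRes A) (NmF (M * p) A)}
    (hQ : NmSpecOo M p A (nmCentre A P) Q) (hQ' : NmSpecOo M p A (nmCentre A P') Q) :
    nmCentre A P = nmCentre A P' := H.oo.centre_eq_of_spec P P' hQ hQ'

/-- (d) component `0` -/
theorem NmBase.centre_eq_of_specZero (H : NmBase M p A) {Q : Place (kRes A) (NmF (M * p) A)}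
    (hQ : NmSpecZero M p H.setup.cop A (nmCentre A P) Q)
    (hQ' : NmSpecZero M p H.setup.cop A (nmCentre A P') Q) :
    nmCentre A P = nmCentre A P' := H.zero.centre_eq_of_spec P P' hQ hQ'

/-- (c) uniqueness of the place of `F_∞` over a centre, from [DVR] -/
theorem NmBase.specOo_unique (H : NmBase M p A) (hD : NmDvrOoStatement M p)
    {Q Q' : Place (kRes A) (NmF (M * p) A)}
    (hQ : NmSpecOo M p A (nmCentre A P) Q) (hQ' : NmSpecOo M p A (nmCentre A P) Q') :
    Q = Q' := by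
  obtain ⟨Q₀, -, h₀⟩ := hD A H.setup P (H.idealOo_of_specOo hQ)
  rw [← H.oo.spec_unique P h₀ hQ, ← H.oo.spec_unique P h₀ hQ']

/-- (c) component `0` -/
theorem NmBase.specZero_unique (H : NmBase M p A) (hD : NmDvrZeroStatement M p)
    {Q Q' : Place (kRes A) (NmF (M * p) A)}
    (hQ : NmSpecZero M p H.setup.cop A (nmCentre A P) Q)
    (hQ' : NmSpecZero M p H.setup.cop A (nmCentre A P) Q') : Q = Q' := by
  obtain ⟨Q₀, -, h₀⟩ := hD A H.setup P (H.idealZero_of_specZero hQ)
  rw [← H.zero.spec_unique P h₀ hQ, ← H.zero.spec_unique P h₀ hQ']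

variable (P)

/-- the centre lies on `C_∞` : place form ↔ ideal form (from [DVR]) -/
theorem NmBase.onOo_iff_idealOo (H : NmBase M p A) (hD : NmDvrOoStatement M p) :
    NmOnOo M p A (nmCentre A P) ↔ NmIdealOo M p A P :=
  ⟨fun ⟨_, hQ⟩ => H.idealOo_of_specOo hQ, fun h =>
    let ⟨Q, hQ, _⟩ := hD A H.setup P h
    ⟨Q, hQ⟩⟩

/-- component `0` -/
theorem NmBase.onZero_iff_idealZero (H : NmBase M p A) (hD : NmDvrZeroStatement M p) :
    NmOnZero M p H.setup.cop A (nmCentre A P) ↔ NmIdealZero M p H.setup.cop A P :=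
  ⟨fun ⟨_, hQ⟩ => H.idealZero_of_specZero hQ, fun h =>
    let ⟨Q, hQ, _⟩ := hD A H.setup P h
    ⟨Q, hQ⟩⟩

end Lib

/-! ### The targets of row B1-SPEC -/

/-- **[TOT]** from [TOTI] + [DVR]. -/
theorem nmTot {M p : ℕ} [NeZero M] [NeZero p] (hT : NmTotIdealStatement M p)
    (hDo : NmDvrOoStatement M p) (hDz : NmDvrZeroStatement M p) : NmTotStatement M p := by
  intro A h P
  rcases hT A h P with h1 | h1
  · obtain ⟨Q, hQ, -⟩ := hDo A h P h1
    exact Or.inl ⟨Q, hQ⟩
  · obtain ⟨Q, hQ, -⟩ := hDz A h P h1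
    exact Or.inr ⟨Q, hQ⟩

/-- **B1-SPEC** : the fields `nOo_inj`, `n0_inj`, `r_oo`, `r_zero` of `NodalRvHyp` for `nmG`. -/
theorem nmSpec {M p : ℕ} [NeZero M] [NeZero p] (hS : NmSoftStatement M p)
    (hJ : NmChartSoftStatement M p) : NmSpecStatement M p := by
  intro A h htot
  have H : NmBase M p A := nmBase_of hS hJ h
  refine ⟨?_, ?_, ?_, ?_⟩
  · -- nOo_inj
    intro ν ν' hνν'
    obtain ⟨P, hP⟩ := ν.2.1
    obtain ⟨P', hP'⟩ := ν'.2.1
    have h1 : NmSpecOo M p A (nmCentre A P) (nmNOo M p h.cop A ν) := by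
      rw [hP]; exact nmNOo_spec M p h.cop A ν
    have h2 : NmSpecOo M p A (nmCentre A P') (nmNOo M p h.cop A ν) := by
      rw [hP']
      have := nmNOo_spec M p h.cop A ν'
      have e : nmNOo M p h.cop A ν = nmNOo M p h.cop A ν' := hνν'
      rw [e]; exact this
    have := H.centre_eq_of_specOo h1 h2
    apply Subtype.ext
    rw [← hP, ← hP', this]
  · -- n0_inj
    intro ν ν' hνν'
    obtain ⟨P, hP⟩ := ν.2.1
    obtain ⟨P', hP'⟩ := ν'.2.1
    have h1 : NmSpecZero M p h.cop A (nmCentre A P) (nmN0 M p h.cop A ν) := by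
      rw [hP]; exact nmN0_spec M p h.cop A ν
    have h2 : NmSpecZero M p h.cop A (nmCentre A P') (nmN0 M p h.cop A ν) := by
      rw [hP']
      have := nmN0_spec M p h.cop A ν'
      have e : nmN0 M p h.cop A ν = nmN0 M p h.cop A ν' := hνν'
      rw [e]; exact this
    have := H.centre_eq_of_specZero h1 h2
    apply Subtype.ext
    rw [← hP, ← hP', this]
  · -- r_oo
    rintro P Q hPQ ⟨ν, rfl⟩
    obtain ⟨hnode, hQ⟩ := nmR_oo htot P _ hPQ
    obtain ⟨P', hP'⟩ := ν.2.1
    have h2 : NmSpecOo M p A (nmCentre A P') (nmNOo M p h.cop A ν) := by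
      rw [hP']; exact nmNOo_spec M p h.cop A ν
    have := H.centre_eq_of_specOo hQ h2
    apply hnode
    rw [this, hP']
    exact ν.2
  · -- r_zero
    rintro P Q hPQ ⟨ν, rfl⟩
    obtain ⟨hnoo, hQ⟩ := nmR_zero htot P _ hPQ
    obtain ⟨P', hP'⟩ := ν.2.1
    have h2 : NmSpecZero M p h.cop A (nmCentre A P') (nmN0 M p h.cop A ν) := by
      rw [hP']; exact nmN0_spec M p h.cop A ν
    have := H.centre_eq_of_specZero hQ h2
    apply hnoo
    rw [this, hP']
    exact ν.2.2.1

/-! ### The specialisation map `nmR` -/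

section R

variable {M p : ℕ} [NeZero M] [NeZero p] {A : ValuationSubring Qb}

/-- `r P = oo Q` iff `Q` lies over the centre of `P` and the centre is not on `C_0`. -/
theorem NmBase.nmR_eq_oo_iff (H : NmBase M p A) (hDo : NmDvrOoStatement M p)
    (htot : NmTot M p H.setup.cop A) (P : Place Qb (FLb (M * p)))
    (Q : Place (kRes A) (NmF (M * p) A)) :
    nmR htot P = NPt.oo Q ↔
      NmSpecOo M p A (nmCentre A P) Q ∧ ¬ NmOnZero M p H.setup.cop A (nmCentre A P) := by
  classical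
  constructor
  · intro h
    obtain ⟨h1, h2⟩ := nmR_oo htot P Q h
    exact ⟨h2, fun h3 => h1 ⟨⟨P, rfl⟩, ⟨Q, h2⟩, h3⟩⟩
  · rintro ⟨h1, h2⟩
    have hn : ¬ NmIsNode M p H.setup.cop A (nmCentre A P) := fun h => h2 h.2.2
    have ho : NmOnOo M p A (nmCentre A P) := ⟨Q, h1⟩
    rw [nmR, dif_neg hn, dif_pos ho]
    congr 1
    exact H.specOo_unique hDo (Classical.choose_spec ho) h1

/-- `r P = zero Q` iff `Q` lies over the centre of `P` and the centre is not on `C_∞`. -/
theorem NmBase.nmR_eq_zero_iff (H : NmBase M p A) (hDz : NmDvrZeroStatement M p)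
    (htot : NmTot M p H.setup.cop A) (P : Place Qb (FLb (M * p)))
    (Q : Place (kRes A) (NmF (M * p) A)) :
    nmR htot P = NPt.zero Q ↔
      NmSpecZero M p H.setup.cop A (nmCentre A P) Q ∧ ¬ NmOnOo M p A (nmCentre A P) := by
  classical
  constructor
  · intro h
    obtain ⟨h1, h2⟩ := nmR_zero htot P Q h
    exact ⟨h2, h1⟩
  · rintro ⟨h1, h2⟩
    have hn : ¬ NmIsNode M p H.setup.cop A (nmCentre A P) := fun h => h2 h.2.1
    rw [nmR, dif_neg hn, dif_neg h2]
    congr 1
    exact H.specZero_unique hDz (Classical.choose_spec ((htot P).resolve_left h2)) h1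

/-- **the residue discs are the fibres of the centre map** -/
theorem NmBase.nmR_eq_iff_centre_eq (H : NmBase M p A) (htot : NmTot M p H.setup.cop A)
    (P P' : Place Qb (FLb (M * p))) :
    nmR htot P = nmR htot P' ↔ nmCentre A P = nmCentre A P' := by
  classical
  constructor
  · intro h
    by_cases hn : NmIsNode M p H.setup.cop A (nmCentre A P)
    · have e : nmR htot P = NPt.node ⟨nmCentre A P, hn⟩ := by rw [nmR, dif_pos hn]
      rw [h] at e
      exact ((nmR_node_iff htot P' _).1 e).symm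
    · by_cases ho : NmOnOo M p A (nmCentre A P)
      · have e : nmR htot P = NPt.oo (Classical.choose ho) := by
          rw [nmR, dif_neg hn, dif_pos ho]
        have e' := e
        rw [h] at e'
        exact H.centre_eq_of_specOo (nmR_oo htot P _ e).2 (nmR_oo htot P' _ e').2
      · have e : nmR htot P =
            NPt.zero (Classical.choose ((htot P).resolve_left ho)) := by
          rw [nmR, dif_neg hn, dif_neg ho]
        have e' := e
        rw [h] at e'
        exact H.centre_eq_of_specZero (nmR_zero htot P _ e).2 (nmR_zero htot P' _ e').2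
  · intro h
    unfold nmR
    simp only [h]

end R

end Fermat.Agent.H84.ORD
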