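import Fermat.Agent.H18.ORD.NodalSemiThm

/-!
# P-ORD, block B1-LIFT : PAIR-SEMI relative to a subspace (repair of [CF], helper84)

helper22's truth flag (findings #568) : the global coefficient functionals `NodalCoeff G J lam`
of helper18's PAIR-SEMI chain do not exist for the `q`-expansion coefficients (`1 / (p j + 1)`
lies in both Gauss rings but has unbounded denominators).  In helper18's proofs the
functionals are only ever applied to elements of the subspace `V = L(n P∞ + n P0)` under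
consideration.  This file is the relativised port :

* `NodalCoeffOn G V J lam` : the functionals detect `V_∞ ∩ V_0` ON `V` and take inertia-fixed
  values on the inertia-fixed elements of `V`;
* `NodalCoeff.on`, `NodalCoeffOn.mono`;
* `psr_bounded`, `psr_nondeg`, `psr_pivot`, `psr_ker`, `psr_list`, `psr_indep` : the relative
  twins of helper18's lemmas;
* `pairSemiAt_on` : **(PAIR-SEMI)** from relative coefficient functionals on every
  `L(n P∞ + n P0)`.
-/

set_option autoImplicit false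
set_option linter.unusedSectionVars false
set_option linter.style.haveILetI false
set_option maxHeartbeats 1600000
set_option synthInstance.maxHeartbeats 400000

noncomputable section

open AlgebraicCurve ModularCurve

namespace Fermat.Agent.H84.ORD

open Fermat.Agent.H72.FF Fermat.Agent.H85.ORD Fermat.Agent.H94.ORD Fermat.Agent.H27.ESD
open Fermat.Agent.H18.ORD

variable {N : ℕ} {A : ValuationSubring Qb} {Foo F0 : Type} [Field Foo] [Field F0]
  [Algebra (kRes A) Foo] [Algebra (kRes A) F0] {ι : Type}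
  {p : ℕ} {G : NodalData N A Foo F0 ι} {J : Type} {lam : J → FLb N →ₗ[Qb] Qb}
  {V : Submodule Qb (FLb N)}

/-- **[CF], relative form** : coefficient functionals detecting `V_∞ ∩ V_0` on the subspace
`V`, with inertia-fixed values on the inertia-fixed elements of `V`. -/
structure NodalCoeffOn (G : NodalData N A Foo F0 ι) (V : Submodule Qb (FLb N)) (J : Type)
    (lam : J → FLb N →ₗ[Qb] Qb) : Prop where
  mem_iff : ∀ f ∈ V, (f ∈ G.Voo ∧ f ∈ G.V0) ↔ ∀ j, lam j f ∈ A
  rat : ∀ f ∈ V, IsUnrFn A N f → ∀ (j : J), ∀ σ ∈ A.inertiaSubgroupIn ℚ,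
    σ (lam j f) = lam j f

/-- global functionals are relative functionals on every subspace -/
theorem NodalCoeffOn.of_global (hC : NodalCoeff G J lam) (V : Submodule Qb (FLb N)) :
    NodalCoeffOn G V J lam where
  mem_iff := fun f _ => hC.mem_iff f
  rat := fun _ _ hf j => ps_rat_lam hC hf j

theorem NodalCoeffOn.mono {V' : Submodule Qb (FLb N)} (hC : NodalCoeffOn G V J lam)
    (h : V' ≤ V) : NodalCoeffOn G V' J lam where
  mem_iff := fun f hf => hC.mem_iff f (h hf)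
  rat := fun f hf => hC.rat f (h hf)

theorem psr_smul_mem {f : FLb N} (hf : f ∈ V) (c : Qb) :
    algebraMap Qb (FLb N) c * f ∈ V := by
  rw [← Algebra.smul_def]
  exact V.smul_mem _ hf

/-- the coefficients of a function of `V` have bounded denominators -/
theorem psr_bounded (H : NodalRvHyp p G) (hp : p.Prime) (hA : A.LiesOverPrime p)
    (hC : NodalCoeffOn G V J lam) {f : FLb N} (hfV : f ∈ V) :
    ∃ M : ℕ, ∀ j, (p : Qb) ^ M * lam j f ∈ A := by
  by_cases hf : f = 0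
  · refine ⟨0, fun j => ?_⟩
    rw [hf, map_zero, mul_zero]
    exact A.zero_mem
  obtain ⟨c, hc, h1, h2⟩ := H.exists_scale hf
  have h3 := (hC.mem_iff _ (psr_smul_mem hfV c)).mp ⟨h1, h2⟩
  obtain ⟨M, hM⟩ := Fermat.Agent.H57.FF.exists_pow_mul_mem hp A hA c⁻¹
  refine ⟨M, fun j => ?_⟩
  have h4 := h3 j
  rw [ps_lam_algebraMap_mul] at h4
  have : (p : Qb) ^ M * lam j f = ((p : Qb) ^ M * c⁻¹) * (c * lam j f) := by
    field_simp
  rw [this]
  exact A.mul_mem _ _ (hM M le_rfl) h4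

/-- a nonzero function of `V` has a nonzero coefficient -/
theorem psr_nondeg (H : NodalRvHyp p G) (hp : p.Prime) (hA : A.LiesOverPrime p)
    (hC : NodalCoeffOn G V J lam) {f : FLb N} (hfV : f ∈ V) (hf : f ≠ 0) :
    ∃ j, lam j f ≠ 0 := by
  by_contra hcon
  push Not at hcon
  have hpQ : (p : Qb) ≠ 0 := by exact_mod_cast hp.ne_zero
  obtain ⟨c₁, u₁, hc₁, hu₁, hf₁⟩ := H.norm_oo f hf
  have hc₁L : algebraMap Qb (FLb N) c₁ ≠ 0 := by
    rw [Ne, map_eq_zero_iff _ (algebraMap Qb (FLb N)).injective]; exact hc₁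
  have hpL : algebraMap Qb (FLb N) (p : Qb) ≠ 0 := by
    rw [Ne, map_eq_zero_iff _ (algebraMap Qb (FLb N)).injective]; exact hpQ
  have h1 : algebraMap Qb (FLb N) (c₁ * p)⁻¹ * f ∈ G.Voo := by
    refine ((hC.mem_iff _ (psr_smul_mem hfV _)).mpr fun j => ?_).1
    rw [ps_lam_algebraMap_mul, hcon j, mul_zero]
    exact A.zero_mem
  have hu₁0 : (u₁ : FLb N) ≠ 0 := by
    intro h
    apply hu₁
    have : u₁ = 0 := Subtype.ext h
    rw [this, map_zero]
  have h2 : algebraMap Qb (FLb N) (p : Qb)⁻¹ ∈ G.Voo := by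
    have : algebraMap Qb (FLb N) (p : Qb)⁻¹
        = (algebraMap Qb (FLb N) (c₁ * p)⁻¹ * f) * (u₁ : FLb N)⁻¹ := by
      rw [hf₁, map_inv₀, map_inv₀, map_mul]
      field_simp
    rw [this]
    exact G.Voo.mul_mem h1 (H.inv_oo u₁ hu₁)
  have h3 : (p : Qb)⁻¹ ∈ A := (H.const_oo _).mp h2
  exact na_unit_not_mem_nonunits hpQ h3 hA

/-- **Maximal pivot**, relative form. -/
theorem psr_pivot (H : NodalRvHyp p G) (hp : p.Prime) (hA : A.LiesOverPrime p)
    (hdisc : UnrDisc p A) (hC : NodalCoeffOn G V J lam) {f : FLb N} (hfV : f ∈ V)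
    (hf : f ≠ 0) (hfI : IsUnrFn A N f) :
    ∃ j₀, lam j₀ f ≠ 0 ∧ ∀ j, lam j f * (lam j₀ f)⁻¹ ∈ A := by
  classical
  have hpQ : (p : Qb) ≠ 0 := by exact_mod_cast hp.ne_zero
  have hpA : (p : Qb) ∈ A := A.nonunits_subset hA
  obtain ⟨M, hM⟩ := psr_bounded H hp hA hC hfV
  obtain ⟨j₁, hj₁⟩ := psr_nondeg H hp hA hC hfV hf
  -- the set of exponents
  let P : ℤ → Prop := fun n => ∃ j, lam j f ≠ 0 ∧
    lam j f * (p : Qb) ^ n ∈ A ∧ (lam j f * (p : Qb) ^ n)⁻¹ ∈ A
  have hbdd : ∀ n, P n → n ≤ (M : ℤ) := by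
    rintro n ⟨j, hj0, -, hj2⟩
    by_contra hcon
    push Not at hcon
    have h1 : (p : Qb) ^ ((M : ℤ) - n) ∈ A := by
      have : (p : Qb) ^ ((M : ℤ) - n)
          = ((p : Qb) ^ M * lam j f) * (lam j f * (p : Qb) ^ n)⁻¹ := by
        rw [zpow_sub₀ hpQ, zpow_natCast]
        field_simp
      rw [this]
      exact A.mul_mem _ _ (hM j) hj2
    have h2 : ((p : Qb) ^ ((M : ℤ) - n))⁻¹ ∈ A.nonunits := by
      obtain ⟨k, hk⟩ : ∃ k : ℕ, (M : ℤ) - n = -((k : ℤ) + 1) := ⟨(n - M - 1).toNat, by omega⟩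
      rw [hk, zpow_neg, inv_inv]
      have : (p : Qb) ^ ((k : ℤ) + 1) = (p : Qb) ^ (k + 1) := by
        rw [← zpow_natCast]; push_cast; rfl
      rw [this, A.mem_nonunits_iff, map_pow]
      exact pow_lt_one₀ zero_le ((A.mem_nonunits_iff).mp hA) (Nat.succ_ne_zero k)
    exact na_unit_not_mem_nonunits (inv_ne_zero (zpow_ne_zero _ hpQ))
      (by rw [inv_inv]; exact h1) h2
  have hex : ∃ n, P n := by
    obtain ⟨n, h1, h2⟩ := hdisc (lam j₁ f) hj₁ (hC.rat f hfV hfI j₁)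
    exact ⟨n, j₁, hj₁, h1, h2⟩
  obtain ⟨n₀, ⟨j₀, hj₀, h1, h2⟩, hmax⟩ := Int.exists_greatest_of_bdd ⟨M, hbdd⟩ hex
  refine ⟨j₀, hj₀, fun j => ?_⟩
  by_cases hj : lam j f = 0
  · rw [hj, zero_mul]; exact A.zero_mem
  obtain ⟨n, h3, h4⟩ := hdisc (lam j f) hj (hC.rat f hfV hfI j)
  have hle : n ≤ n₀ := hmax n ⟨j, hj, h3, h4⟩
  obtain ⟨k, hk⟩ : ∃ k : ℕ, n₀ - n = (k : ℤ) := ⟨(n₀ - n).toNat, by omega⟩
  have : lam j f * (lam j₀ f)⁻¹
      = (lam j f * (p : Qb) ^ n) * (p : Qb) ^ k * (lam j₀ f * (p : Qb) ^ n₀)⁻¹ := by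
    have hn₀ : n₀ = n + k := by omega
    rw [hn₀, zpow_add₀ hpQ, zpow_natCast]
    field_simp
  rw [this]
  exact A.mul_mem _ _ (A.mul_mem _ _ h3 (pow_mem hpA k)) h2

/-- a function of `V ∩ V_∞ ∩ V_0` with both reductions zero has its coefficients in `𝔪_A` -/
theorem psr_ker (H : NodalRvHyp p G) (hC : NodalCoeffOn G V J lam) {u : FLb N}
    (huV : u ∈ V) (hu : u ∈ G.Voo) (hu0 : u ∈ G.V0) (h1 : G.redOo ⟨u, hu⟩ = 0)
    (h2 : G.red0 ⟨u, hu0⟩ = 0) :
    ∀ j, lam j u ∈ A.nonunits := by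
  intro j
  by_cases hne : u = 0
  · rw [hne, map_zero, A.mem_nonunits_iff, map_zero]
    exact zero_lt_one
  obtain ⟨c₁, u₁, hc₁, hu₁, hf₁, hc₁A, h3, -⟩ := H.norm_oo_mem hu hne
  obtain ⟨c₂, u₂, hc₂, hu₂, hf₂, hc₂A, h4, -⟩ := H.norm_zero_mem hu0 hne
  have hc₁n : c₁ ∈ A.nonunits := by
    rw [A.mem_nonunits_iff_or]
    exact Or.inr fun h => h3 h h1
  have hc₂n : c₂ ∈ A.nonunits := by
    rw [A.mem_nonunits_iff_or]
    exact Or.inr fun h => h4 h h2
  have key : ∀ c : Qb, c ≠ 0 → c ∈ A.nonunits → algebraMap Qb (FLb N) c⁻¹ * u ∈ G.Voo →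
      algebraMap Qb (FLb N) c⁻¹ * u ∈ G.V0 → lam j u ∈ A.nonunits := by
    intro c hc hcn h5 h6
    have h7 := (hC.mem_iff _ (psr_smul_mem huV _)).mp ⟨h5, h6⟩ j
    rw [ps_lam_algebraMap_mul] at h7
    have : lam j u = c * (c⁻¹ * lam j u) := by field_simp
    rw [this, A.mem_nonunits_iff, map_mul]
    exact lt_of_le_of_lt (mul_le_of_le_one_right' ((A.valuation_le_one_iff _).mpr h7))
      ((A.mem_nonunits_iff).mp hcn)
  rcases A.mem_or_inv_mem (c₂ * c₁⁻¹) with h | h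
  · refine key c₁ hc₁ hc₁n ?_ ?_
    · have : algebraMap Qb (FLb N) c₁⁻¹ * u = (u₁ : FLb N) := by
        have hc₁L : algebraMap Qb (FLb N) c₁ ≠ 0 := by
          rw [Ne, map_eq_zero_iff _ (algebraMap Qb (FLb N)).injective]; exact hc₁
        rw [hf₁, map_inv₀]; field_simp
      rw [this]; exact u₁.2
    · have : algebraMap Qb (FLb N) c₁⁻¹ * u
          = algebraMap Qb (FLb N) (c₂ * c₁⁻¹) * (u₂ : FLb N) := by
        rw [hf₂, map_mul, map_inv₀]; ring
      rw [this]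
      exact G.V0.mul_mem ((H.const_zero _).mpr h) u₂.2
  · rw [mul_inv, inv_inv] at h
    refine key c₂ hc₂ hc₂n ?_ ?_
    · have : algebraMap Qb (FLb N) c₂⁻¹ * u
          = algebraMap Qb (FLb N) (c₂⁻¹ * c₁) * (u₁ : FLb N) := by
        rw [hf₁, map_mul, map_inv₀]; ring
      rw [this]
      exact G.Voo.mul_mem ((H.const_oo _).mpr h) u₁.2
    · have : algebraMap Qb (FLb N) c₂⁻¹ * u = (u₂ : FLb N) := by
        have hc₂L : algebraMap Qb (FLb N) c₂ ≠ 0 := by
          rw [Ne, map_eq_zero_iff _ (algebraMap Qb (FLb N)).injective]; exact hc₂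
        rw [hf₂, map_inv₀]; field_simp
      rw [this]; exact u₂.2

/-- **Gaussian elimination with maximal pivots**, relative form. -/
theorem psr_list (H : NodalRvHyp p G) (hp : p.Prime) (hA : A.LiesOverPrime p)
    (hdisc : UnrDisc p A) :
    ∀ (d : ℕ) (V : Submodule Qb (FLb N)), FiniteDimensional Qb V →
      Module.finrank Qb V = d → IsRatSpanned A N V → NodalCoeffOn G V J lam →
      ∃ l : List (J × FLb N), l.length = d ∧
        (∀ a ∈ l, a.2 ∈ V ∧ IsUnrFn A N a.2 ∧ (∀ j, lam j a.2 ∈ A) ∧ lam a.1 a.2 = 1) ∧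
        l.Pairwise (fun a b => lam a.1 b.2 = 0) := by
  intro d
  induction d with
  | zero =>
    intro V _ _ _ _
    exact ⟨[], rfl, fun a ha => absurd ha (List.not_mem_nil), List.Pairwise.nil⟩
  | succ d ih =>
    intro V hfin hd hV hC
    haveI := hfin
    -- a nonzero inertia-fixed element
    have hVne : V ≠ ⊥ := by
      intro h
      rw [h, finrank_bot] at hd
      omega
    obtain ⟨f₀, ⟨hf₀V, hf₀I⟩, hf₀⟩ : ∃ f, (f ∈ V ∧ IsUnrFn A N f) ∧ f ≠ 0 := by
      by_contra hcon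
      push Not at hcon
      apply hVne
      rw [eq_bot_iff]
      refine le_trans hV (Submodule.span_le.mpr ?_)
      intro f hf
      rw [SetLike.mem_coe, Submodule.mem_bot]
      exact hcon f hf
    obtain ⟨j₀, hj₀, hpiv⟩ := psr_pivot H hp hA hdisc hC hf₀V hf₀ hf₀I
    set c₀ : Qb := lam j₀ f₀ with hc₀
    have hc₀I : ∀ σ ∈ A.inertiaSubgroupIn ℚ, σ c₀⁻¹ = c₀⁻¹ := by
      intro σ hσ
      rw [map_inv₀, hC.rat f₀ hf₀V hf₀I j₀ σ hσ]
    set w₀ : FLb N := algebraMap Qb (FLb N) c₀⁻¹ * f₀ with hw₀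
    have hw₀V : w₀ ∈ V := by
      rw [hw₀, ← Algebra.smul_def]
      exact V.smul_mem _ hf₀V
    have hw₀I : IsUnrFn A N w₀ := isUnrFn_const_mul hc₀I hf₀I
    have hw₀lam : ∀ j, lam j w₀ = lam j f₀ * c₀⁻¹ := by
      intro j
      rw [hw₀, ps_lam_algebraMap_mul, mul_comm]
    have hw₀piv : lam j₀ w₀ = 1 := by
      rw [hw₀lam, ← hc₀, mul_inv_cancel₀ hj₀]
    -- the hyperplane
    set φ : V →ₗ[Qb] Qb := (lam j₀).domRestrict V with hφ
    set V' : Submodule Qb (FLb N) := (LinearMap.ker φ).map V.subtype with hV'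
    have hmemV' : ∀ f, f ∈ V' ↔ f ∈ V ∧ lam j₀ f = 0 := by
      intro f
      rw [hV', Submodule.mem_map]
      constructor
      · rintro ⟨x, hx, rfl⟩
        exact ⟨x.2, LinearMap.mem_ker.mp hx⟩
      · rintro ⟨h1, h2⟩
        exact ⟨⟨f, h1⟩, LinearMap.mem_ker.mpr h2, rfl⟩
    have hV'le : V' ≤ V := fun f hf => ((hmemV' f).mp hf).1
    haveI hfin' : FiniteDimensional Qb V' := Submodule.finiteDimensional_of_le hV'le
    have hrange : LinearMap.range φ = ⊤ := by
      rw [LinearMap.range_eq_top]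
      intro c
      refine ⟨c • ⟨w₀, hw₀V⟩, ?_⟩
      rw [map_smul, smul_eq_mul]
      show c * lam j₀ w₀ = c
      rw [hw₀piv, mul_one]
    have hd' : Module.finrank Qb V' = d := by
      have h1 := LinearMap.finrank_range_add_finrank_ker φ
      rw [hrange, finrank_top, Module.finrank_self, hd] at h1
      have h2 : Module.finrank Qb V' = Module.finrank Qb (LinearMap.ker φ) :=
        (LinearEquiv.finrank_eq
          (Submodule.equivMapOfInjective V.subtype V.injective_subtype _)).symm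
      omega
    -- `V'` is spanned by inertia-fixed elements
    have hV'rat : IsRatSpanned A N V' := by
      intro f hf
      obtain ⟨hfV, hf0⟩ := (hmemV' f).mp hf
      set π : FLb N →ₗ[Qb] FLb N := LinearMap.id - (lam j₀).smulRight w₀ with hπ
      have hπf : π f = f := by
        rw [hπ, LinearMap.sub_apply, LinearMap.id_apply, LinearMap.smulRight_apply, hf0,
          zero_smul, sub_zero]
      have h1 : π f ∈ (Submodule.span Qb {f | f ∈ V ∧ IsUnrFn A N f}).map π :=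
        Submodule.mem_map_of_mem (hV hfV)
      rw [Submodule.map_span] at h1
      rw [← hπf]
      refine Submodule.span_mono ?_ h1
      rintro _ ⟨s, ⟨hsV, hsI⟩, rfl⟩
      have hπs : π s = s - algebraMap Qb (FLb N) (lam j₀ s) * w₀ := by
        rw [hπ, LinearMap.sub_apply, LinearMap.id_apply, LinearMap.smulRight_apply,
          Algebra.smul_def]
      refine ⟨(hmemV' _).mpr ⟨?_, ?_⟩, ?_⟩
      · rw [hπs, ← Algebra.smul_def]
        exact V.sub_mem hsV (V.smul_mem _ hw₀V)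
      · rw [hπs, map_sub, ps_lam_algebraMap_mul, hw₀piv, mul_one, sub_self]
      · rw [hπs]
        exact isUnrFn_sub hsI (isUnrFn_const_mul (hC.rat s hsV hsI j₀) hw₀I)
    obtain ⟨l', hlen, hmem, hpair⟩ := ih V' hfin' hd' hV'rat (hC.mono hV'le)
    refine ⟨(j₀, w₀) :: l', by rw [List.length_cons, hlen], ?_, ?_⟩
    · intro a ha
      rcases List.mem_cons.mp ha with rfl | ha'
      · refine ⟨hw₀V, hw₀I, fun j => ?_, hw₀piv⟩
        rw [hw₀lam]
        exact hpiv j
      · obtain ⟨h1, h2, h3, h4⟩ := hmem a ha'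
        exact ⟨hV'le h1, h2, h3, h4⟩
    · refine List.pairwise_cons.mpr ⟨fun b hb => ?_, hpair⟩
      exact ((hmemV' _).mp (hmem b hb).1).2

/-- the reduction pairs of a triangular family of `V` are linearly independent -/
theorem psr_indep (H : NodalRvHyp p G) (hC : NodalCoeffOn G V J lam) (l : List (J × FLb N))
    (hlV : ∀ a ∈ l, a.2 ∈ V)
    (hint : ∀ a ∈ l, ∀ j, lam j a.2 ∈ A) (hpiv : ∀ a ∈ l, lam a.1 a.2 = 1)
    (htri : l.Pairwise (fun a b => lam a.1 b.2 = 0))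
    (woo : Fin l.length → G.Voo) (w0 : Fin l.length → G.V0)
    (hwoo : ∀ i, ((woo i : G.Voo) : FLb N) = (l.get i).2)
    (hw0 : ∀ i, ((w0 i : G.V0) : FLb N) = (l.get i).2) :
    LinearIndependent (kRes A) (fun i => (G.redOo (woo i), G.red0 (w0 i))) := by
  classical
  rw [Fintype.linearIndependent_iff]
  intro cb hcb
  have hsurj : Function.Surjective (IsLocalRing.residue A) := Ideal.Quotient.mk_surjective
  choose c hc using fun i => hsurj (cb i)
  have hcoo : ∀ i, algebraMap Qb (FLb N) (c i : Qb) ∈ G.Voo :=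
    fun i => (H.const_oo _).mpr (c i).2
  have hc0 : ∀ i, algebraMap Qb (FLb N) (c i : Qb) ∈ G.V0 :=
    fun i => (H.const_zero _).mpr (c i).2
  set Uoo : G.Voo := ∑ i, (⟨_, hcoo i⟩ : G.Voo) * woo i with hUoo
  set U0 : G.V0 := ∑ i, (⟨_, hc0 i⟩ : G.V0) * w0 i with hU0
  set u : FLb N := ∑ i, algebraMap Qb (FLb N) (c i : Qb) * (l.get i).2 with hu
  have huV : u ∈ V := by
    rw [hu]
    refine Submodule.sum_mem _ fun i _ => ?_
    exact psr_smul_mem (hlV _ (List.get_mem l i)) _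
  have hUoo_coe : (Uoo : FLb N) = u := by
    rw [hUoo, hu, AddSubmonoidClass.coe_finsetSum]
    refine Finset.sum_congr rfl fun i _ => ?_
    rw [Subring.coe_mul, hwoo]
  have hU0_coe : (U0 : FLb N) = u := by
    rw [hU0, hu, AddSubmonoidClass.coe_finsetSum]
    refine Finset.sum_congr rfl fun i _ => ?_
    rw [Subring.coe_mul, hw0]
  have hredoo : G.redOo Uoo = 0 := by
    have h1 : (∑ i, cb i • (G.redOo (woo i), G.red0 (w0 i))).1 = 0 := by rw [hcb]; rfl
    rw [Prod.fst_sum] at h1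
    rw [hUoo, map_sum]
    refine Eq.trans ?_ h1
    refine Finset.sum_congr rfl fun i _ => ?_
    rw [map_mul, H.red_const_oo (c i) (hcoo i), hc i, Prod.smul_fst, Algebra.smul_def]
  have hred0 : G.red0 U0 = 0 := by
    have h1 : (∑ i, cb i • (G.redOo (woo i), G.red0 (w0 i))).2 = 0 := by rw [hcb]; rfl
    rw [Prod.snd_sum] at h1
    rw [hU0, map_sum]
    refine Eq.trans ?_ h1
    refine Finset.sum_congr rfl fun i _ => ?_
    rw [map_mul, H.red_const_zero (c i) (hc0 i), hc i, Prod.smul_snd, Algebra.smul_def]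
  have huoo : u ∈ G.Voo := hUoo_coe ▸ Uoo.2
  have hu0 : u ∈ G.V0 := hU0_coe ▸ U0.2
  have h1 : G.redOo ⟨u, huoo⟩ = 0 := by
    rw [← hredoo]
    exact congrArg G.redOo (Subtype.ext hUoo_coe.symm)
  have h2 : G.red0 ⟨u, hu0⟩ = 0 := by
    rw [← hred0]
    exact congrArg G.red0 (Subtype.ext hU0_coe.symm)
  have hker := psr_ker H hC huV huoo hu0 h1 h2
  have htr := ps_tri l hint hpiv htri (fun i => (c i : Qb)) hker
  intro i
  rw [← hc i, IsLocalRing.residue_eq_zero_iff, ← ValuationSubring.coe_mem_nonunits_iff]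
  exact htr i

/-- **(PAIR-SEMI) at one `n`**, from relative coefficient functionals on `L(n P∞ + n P0)`. -/
theorem pairSemi_step (H : NodalRvHyp p G) (hp : p.Prime) (hA : A.LiesOverPrime p)
    (hdisc : UnrDisc p A) {g : ℕ}
    (pkL : RiemannPackage Qb (FLb N) g) {Poo P0 : Place Qb (FLb N)}
    (hPoo : IsUnrPlace A N Poo) (hP0 : IsUnrPlace A N P0) (n : ℕ)
    (hC : NodalCoeffOn G (riemannRochSpace (twoPt Poo P0 n)) J lam) :
    ∃ (woo : Fin (Module.finrank Qb (riemannRochSpace (twoPt Poo P0 n))) → G.Voo)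
      (w0 : Fin (Module.finrank Qb (riemannRochSpace (twoPt Poo P0 n))) → G.V0),
    (∀ i, ((woo i : G.Voo) : FLb N) = ((w0 i : G.V0) : FLb N)) ∧
    (∀ i, IsUnrFn A N ((woo i : G.Voo) : FLb N)) ∧
    (∀ i, ((woo i : G.Voo) : FLb N) ∈ riemannRochSpace (twoPt Poo P0 n)) ∧
    LinearIndependent (kRes A) (fun i => (G.redOo (woo i), G.red0 (w0 i))) := by
  unfold twoPt at hC ⊢
  haveI hfin : FiniteDimensional Qb (riemannRochSpace
      (Finsupp.single Poo (n : ℤ) + Finsupp.single P0 (n : ℤ) : Divisor Qb (FLb N))) :=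
    pkL.finite _
  obtain ⟨f, hfV, hfI, -, hspan⟩ :=
    Fermat.Agent.H37.ORD.rr_descent_two_points A N Poo P0 hPoo hP0 (n : ℤ) (n : ℤ)
  have hrat : IsRatSpanned A N (riemannRochSpace
      (Finsupp.single Poo (n : ℤ) + Finsupp.single P0 (n : ℤ) : Divisor Qb (FLb N))) := by
    intro x hx
    have hx' : x ∈ Submodule.span Qb (Set.range f) := by rw [hspan]; exact hx
    refine Submodule.span_mono ?_ hx'
    rintro _ ⟨i, rfl⟩
    exact ⟨hfV i, hfI i⟩
  obtain ⟨l, hlen, hmem, hpair⟩ := psr_list H hp hA hdisc _ _ hfin rfl hrat hC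
  have hVV : ∀ a ∈ l, a.2 ∈ G.Voo ∧ a.2 ∈ G.V0 :=
    fun a ha => (hC.mem_iff _ (hmem a ha).1).mpr (hmem a ha).2.2.1
  let woo : Fin l.length → G.Voo := fun i => ⟨(l.get i).2, (hVV _ (List.get_mem l i)).1⟩
  let w0 : Fin l.length → G.V0 := fun i => ⟨(l.get i).2, (hVV _ (List.get_mem l i)).2⟩
  have hli := psr_indep H hC l (fun a ha => (hmem a ha).1) (fun a ha => (hmem a ha).2.2.1)
    (fun a ha => (hmem a ha).2.2.2) hpair woo w0 (fun _ => rfl) (fun _ => rfl)
  refine ⟨woo ∘ Fin.cast hlen.symm, w0 ∘ Fin.cast hlen.symm, fun i => rfl, fun i => ?_,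
    fun i => ?_, ?_⟩
  · exact (hmem _ (List.get_mem l _)).2.1
  · exact (hmem _ (List.get_mem l _)).1
  · exact hli.comp (Fin.cast hlen.symm) (Fin.cast_injective _)

/-- **(PAIR-SEMI)**, from relative coefficient functionals on every `L(n P∞ + n P0)`. -/
theorem pairSemiAt_on (H : NodalRvHyp p G) (hp : p.Prime) (hA : A.LiesOverPrime p)
    (hdisc : UnrDisc p A) {g : ℕ}
    (pkL : RiemannPackage Qb (FLb N) g) {Poo P0 : Place Qb (FLb N)}
    (hPoo : IsUnrPlace A N Poo) (hP0 : IsUnrPlace A N P0)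
    (hC : ∀ n : ℕ, ∃ (J : Type) (lam : J → FLb N →ₗ[Qb] Qb),
      NodalCoeffOn G (riemannRochSpace (twoPt Poo P0 n)) J lam) :
    PairSemiAt G Poo P0 := by
  intro n
  obtain ⟨J, lam, hJ⟩ := hC n
  exact pairSemi_step H hp hA hdisc pkL hPoo hP0 n hJ

end Fermat.Agent.H84.ORD
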